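import Fermat.Agent.OrdOld.Final
import Fermat.Agent.RTan.UP

/-!
# The statement `U2`
-/

set_option autoImplicit false
set_option linter.unusedSectionVars false

noncomputable section

namespace Fermat.Agent.OrdOld

open IsLocalRing Matrix ModularCurve.Period CongruenceSubgroup
open Fermat.Agent.LocEll Fermat.Agent.HeckeHom

/-- **[U2]** -/
theorem u2 : RTan.U2 := by
  intro p hp hp2 m n _ hm _ hnm hpn E _ _ _ a A _ _ _ _ _ _ hpA ι hι r hr htr hirr hne B hB hord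
  obtain ⟨φ, hφ, hφ0⟩ := Submodule.exists_mem_ne_zero_of_ne_bot hne
  have hmem : ∀ {ψ : Additive (Gamma0 n) →+ E} (hψ : ψ ∈ TWDeg.eigSp E m n a),
      (⟨ψ, hψ.1⟩ : parabolicHoms E (Gamma0 n) E) ∈ VE E n m a := fun hψ =>
    mem_VE.2 hψ.2
  obtain ⟨w, hw, -, hI⟩ := hord
  obtain ⟨z, hline, -, hrel, -⟩ := ordOldE' hpA ι hι hpn hp2 hm hnm a
    (φ := ⟨φ, hφ.1⟩) (fun h => hφ0 (congrArg Subtype.val h)) (hmem hφ) r hr
    (fun s hs hsm B hB τ hτ => (htr s hs hsm B hB τ hτ).1) hirr hB ⟨w, hw, hI⟩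
  exact ⟨z, hline, fun ψ hψ => congrArg Subtype.val (hrel ⟨ψ, hψ.1⟩ (hmem hψ))⟩

end Fermat.Agent.OrdOld
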