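import Fermat.Agent.FlatT.MatRep

/-!
# Exactness of the maximal unramified quotient and ordinary lines

`AugExact`: the exactness property of `M ↦ M / ⟨s m - m⟩` on finite flat modules; consequence: a
residually ordinary representation with flat finite quotients has an inertia line.
-/

set_option autoImplicit false
set_option linter.unusedSectionVars false
set_option linter.style.haveILetI false

noncomputable section

open Module GaloisRep Fermat.Agent.HopfOrder IsLocalRing Matrix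

namespace Fermat.Agent.OrdOld

open Fermat.Agent.DefRing (M2 MatCont mapRep mapRep_apply)
open Fermat.Agent.FlatT

local notation "Qb" => AlgebraicClosure ℚ

/-- The augmentation subgroup for the inertia group. -/
def Aug (A : ValuationSubring Qb) (M : Type) [AddCommGroup M] [DistribMulAction GQ M] :
    AddSubgroup M :=
  AddSubgroup.closure {w | ∃ s ∈ A.inertiaSubgroupIn ℚ, ∃ y : M, w = s • y - y}

/-- Exactness of the maximal unramified quotient on finite flat modules. -/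
def AugExact (p : ℕ) [Fact p.Prime] (A : ValuationSubring Qb) : Prop :=
  ∀ {M : Type} [AddCommGroup M] [Finite M] [DistribMulAction GQ M] (n : ℕ), IsFlatMod p M →
    (∀ x : M, p ^ n • x = 0) → ∀ N : AddSubgroup M,
    (∀ s ∈ A.inertiaSubgroupIn ℚ, ∀ x ∈ N, s • x ∈ N) → ∀ z ∈ N,
      z ∈ AddSubgroup.closure {w | ∃ s ∈ A.inertiaSubgroupIn ℚ, ∃ y : M, w = s • y - y} →
      z ∈ AddSubgroup.closure {w | ∃ s ∈ A.inertiaSubgroupIn ℚ, ∃ y ∈ N, w = s • y - y}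

variable {p : ℕ} [hp : Fact p.Prime] {A : ValuationSubring Qb}

theorem AugExact.pull (hEX : AugExact p A) {M : Type} [AddCommGroup M] [Finite M]
    [DistribMulAction GQ M] {n : ℕ} (hM : IsFlatMod p M) (hn : ∀ x : M, p ^ n • x = 0)
    {X : Type*} [AddCommGroup X] (act : GQ → X → X) (f : X →+ M)
    (hf : ∀ σ x, f (act σ x) = σ • f x) (Y : AddSubgroup X)
    (hY : ∀ s ∈ A.inertiaSubgroupIn ℚ, ∀ x ∈ Y, act s x ∈ Y) {y : X} (hy : y ∈ Y)
    (hfy : f y ∈ Aug A M) :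
    ∃ y' ∈ AddSubgroup.closure {w | ∃ s ∈ A.inertiaSubgroupIn ℚ, ∃ v ∈ Y, w = act s v - v},
      f (y - y') = 0 := by
  have h1 := hEX n hM hn (Y.map f) (by
    rintro s hs _ ⟨x, hx, rfl⟩
    exact ⟨act s x, hY s hs x hx, hf s x⟩) (f y) ⟨y, hy, rfl⟩ hfy
  have h2 : AddSubgroup.closure {w | ∃ s ∈ A.inertiaSubgroupIn ℚ, ∃ m ∈ Y.map f, w = s • m - m} ≤
      (AddSubgroup.closure
        {w | ∃ s ∈ A.inertiaSubgroupIn ℚ, ∃ v ∈ Y, w = act s v - v}).map f := by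
    rw [AddSubgroup.closure_le]
    rintro _ ⟨s, hs, _, ⟨v, hv, rfl⟩, rfl⟩
    exact ⟨act s v - v, AddSubgroup.subset_closure ⟨s, hs, v, hv, rfl⟩, by
      rw [map_sub, hf]⟩
  obtain ⟨y', hy', h3⟩ := h2 h1
  exact ⟨y', hy', by rw [map_sub, h3, sub_self]⟩

section Line

variable {𝒪 : Type} [CommRing 𝒪] [IsDomain 𝒪] [IsDiscreteValuationRing 𝒪]

/-- the determinant pairing with a vector -/
def ell (w v : Fin 2 → 𝒪) : 𝒪 := w 0 * v 1 - w 1 * v 0

/-- The span of the inertia differences. -/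
def augV (A : ValuationSubring Qb) (r : GQ →* M2 𝒪) : Submodule 𝒪 (Fin 2 → 𝒪) :=
  Submodule.span 𝒪 {w | ∃ s ∈ A.inertiaSubgroupIn ℚ, ∃ v : Fin 2 → 𝒪, w = r s *ᵥ v - v}

theorem closure_le_augV (r : GQ →* M2 𝒪) :
    AddSubgroup.closure {w : Fin 2 → 𝒪 | ∃ s ∈ A.inertiaSubgroupIn ℚ, ∃ v : Fin 2 → 𝒪,
      w = r s *ᵥ v - v} ≤ (augV A r).toAddSubgroup := by
  rw [AddSubgroup.closure_le]
  intro w hw
  exact Submodule.subset_span hw

theorem augV_le_closure (r : GQ →* M2 𝒪) {x : Fin 2 → 𝒪} (hx : x ∈ augV A r) :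
    x ∈ AddSubgroup.closure {w : Fin 2 → 𝒪 | ∃ s ∈ A.inertiaSubgroupIn ℚ, ∃ v : Fin 2 → 𝒪,
      w = r s *ᵥ v - v} := by
  unfold augV at hx
  induction hx using Submodule.span_induction with
  | mem x hx => exact AddSubgroup.subset_closure hx
  | zero => exact AddSubgroup.zero_mem _
  | add x y _ _ hx hy => exact AddSubgroup.add_mem _ hx hy
  | smul c x hx0 hx =>
    clear hx0
    induction hx using AddSubgroup.closure_induction with
    | mem x hx =>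
      obtain ⟨s, hs, v, rfl⟩ := hx
      refine AddSubgroup.subset_closure ⟨s, hs, c • v, ?_⟩
      rw [mulVec_smul, smul_sub]
    | zero => rw [smul_zero]; exact AddSubgroup.zero_mem _
    | add x y _ _ hx hy => rw [smul_add]; exact AddSubgroup.add_mem _ hx hy
    | neg x _ hx => rw [smul_neg]; exact AddSubgroup.neg_mem _ hx

theorem decomp_conj {g s : GQ} (hg : g ∈ A.decompositionSubgroup ℚ)
    (hs : s ∈ A.inertiaSubgroupIn ℚ) : g * s * g⁻¹ ∈ A.inertiaSubgroupIn ℚ := by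
  obtain ⟨τ, hτ, rfl⟩ := hs
  refine ⟨⟨g, hg⟩ * τ * ⟨g, hg⟩⁻¹, ?_, rfl⟩
  exact (MonoidHom.normal_ker _).conj_mem τ hτ ⟨g, hg⟩

theorem augV_stable (r : GQ →* M2 𝒪) {g : GQ} (hg : g ∈ A.decompositionSubgroup ℚ)
    {x : Fin 2 → 𝒪} (hx : x ∈ augV A r) : r g *ᵥ x ∈ augV A r := by
  unfold augV at hx
  induction hx using Submodule.span_induction with
  | mem x hx =>
    obtain ⟨s, hs, v, rfl⟩ := hx
    refine Submodule.subset_span ⟨g * s * g⁻¹, decomp_conj hg hs, r g *ᵥ v, ?_⟩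
    rw [mulVec_mulVec, ← map_mul, inv_mul_cancel_right, map_mul, ← mulVec_mulVec, mulVec_sub]
  | zero => rw [mulVec_zero]; exact Submodule.zero_mem _
  | add x y _ _ hx hy => rw [mulVec_add]; exact Submodule.add_mem _ hx hy
  | smul c x _ hx => rw [mulVec_smul]; exact Submodule.smul_mem _ _ hx

/-- The residual hypothesis: inertia acts on the quotient by a line trivially. -/
def ResOrd (A : ValuationSubring Qb) (r : GQ →* M2 𝒪) : Prop :=
  ∃ w : Fin 2 → ResidueField 𝒪, w ≠ 0 ∧ ∀ s ∈ A.inertiaSubgroupIn ℚ,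
    ∀ v, ∃ c : ResidueField 𝒪, mapRep (residue 𝒪) r s *ᵥ v - v = c • w

theorem residue_mulVec (r : GQ →* M2 𝒪) (s : GQ) (v : Fin 2 → 𝒪) :
    (fun i => residue 𝒪 ((r s *ᵥ v) i)) =
      mapRep (residue 𝒪) r s *ᵥ fun i => residue 𝒪 (v i) := by
  funext i
  simp only [mulVec, dotProduct, Fin.sum_univ_two, map_add, map_mul, mapRep_apply]

theorem ResOrd.exists_line {r : GQ →* M2 𝒪} (h : ResOrd A r) :
    ∃ w : Fin 2 → ResidueField 𝒪, w ≠ 0 ∧ ∀ x ∈ augV A r, ∃ c : ResidueField 𝒪,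
      (fun i => residue 𝒪 (x i)) = c • w := by
  obtain ⟨w, hw, h⟩ := h
  refine ⟨w, hw, fun x hx => ?_⟩
  unfold augV at hx
  induction hx using Submodule.span_induction with
  | mem x hx =>
    obtain ⟨s, hs, v, rfl⟩ := hx
    obtain ⟨c, hc⟩ := h s hs fun i => residue 𝒪 (v i)
    refine ⟨c, ?_⟩
    rw [← hc, ← residue_mulVec]
    funext i
    simp
  | zero => exact ⟨0, by funext i; simp⟩
  | add x y _ _ hx hy =>
    obtain ⟨c, hc⟩ := hx
    obtain ⟨d, hd⟩ := hy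
    refine ⟨c + d, ?_⟩
    rw [add_smul, ← hc, ← hd]
    funext i
    simp
  | smul a x _ hx =>
    obtain ⟨c, hc⟩ := hx
    refine ⟨residue 𝒪 a * c, ?_⟩
    rw [mul_smul, ← hc]
    funext i
    simp

/-- The inertia span is not everything modulo the maximal ideal. -/
theorem ResOrd.exists_not {r : GQ →* M2 𝒪} (h : ResOrd A r) :
    ∃ v : Fin 2 → 𝒪, ∀ x ∈ augV A r, ¬ ∀ i, v i - x i ∈ maximalIdeal 𝒪 := by
  obtain ⟨w, hw, h⟩ := h.exists_line
  obtain ⟨i, hi⟩ : ∃ i, w i ≠ 0 := by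
    by_contra hcon
    push Not at hcon
    exact hw (funext hcon)
  -- the other basis vector
  obtain ⟨j, hj⟩ : ∃ j : Fin 2, j ≠ i := ⟨i + 1, by fin_cases i <;> decide⟩
  refine ⟨Pi.single j 1, fun x hx hcon => ?_⟩
  obtain ⟨c, hc⟩ := h x hx
  have h1 : ∀ k, residue 𝒪 ((Pi.single j 1 : Fin 2 → 𝒪) k) = c * w k := by
    intro k
    have h2 := (residue_eq_zero_iff _).2 (hcon k)
    rw [map_sub, sub_eq_zero] at h2
    rw [h2]
    exact congrFun hc k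
  have h3 := h1 i
  rw [Pi.single_eq_of_ne hj.symm, map_zero] at h3
  have hc0 : c = 0 := (mul_eq_zero.mp h3.symm).resolve_right hi
  have h4 := h1 j
  rw [Pi.single_eq_same, map_one, hc0, zero_mul] at h4
  exact one_ne_zero h4

/-- **The inertia line**: rank at most one. -/
theorem ell_eq_zero (hEX : AugExact p A) (hp𝒪 : (p : 𝒪) ∈ maximalIdeal 𝒪)
    [Finite (ResidueField 𝒪)] {r : GQ →* M2 𝒪} (hflat : FlatRep p 𝒪 r) (h : ResOrd A r)
    {x y : Fin 2 → 𝒪} (hx : x ∈ augV A r) (hy : y ∈ augV A r) : ell x y = 0 := by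
  by_contra hne
  obtain ⟨ϖ, hϖ⟩ := IsDiscreteValuationRing.exists_irreducible 𝒪
  obtain ⟨j, u, hu⟩ := IsDiscreteValuationRing.eq_unit_mul_pow_irreducible hne hϖ
  have hmax : maximalIdeal 𝒪 = Ideal.span {ϖ} := hϖ.maximalIdeal_eq
  have hV : ∀ v : Fin 2 → 𝒪, ϖ ^ j • v ∈ augV A r := by
    intro v
    have h1 : ell x y • v = (v 0 * y 1 - v 1 * y 0) • x + (v 1 * x 0 - v 0 * x 1) • y := by
      funext i
      simp only [ell, Pi.add_apply, Pi.smul_apply, smul_eq_mul]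
      fin_cases i
      · simp; ring
      · simp; ring
    have h2 : ϖ ^ j • v = ((u⁻¹ : 𝒪ˣ) : 𝒪) • (ell x y • v) := by
      rw [hu, smul_smul, ← mul_assoc, Units.inv_mul, one_mul]
    rw [h2, h1]
    exact Submodule.smul_mem _ _ (Submodule.add_mem _ (Submodule.smul_mem _ _ hx)
      (Submodule.smul_mem _ _ hy))
  -- the finite level
  let I : Ideal 𝒪 := Ideal.span {ϖ ^ (j + 1)}
  have hI : I = maximalIdeal 𝒪 ^ (j + 1) := by
    rw [hmax, Ideal.span_singleton_pow]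
  have hfin : Finite (𝒪 ⧸ I) := by
    rw [hI]
    have h0 : Finite (𝒪 ⧸ maximalIdeal 𝒪) := ‹Finite (ResidueField 𝒪)›
    exact Ideal.finite_quotient_pow (IsNoetherian.noetherian _) _
  let q := Ideal.Quotient.mk I
  letI := matAct (mapRep q r)
  have hM : IsFlatMod p (Fin 2 → 𝒪 ⧸ I) := hflat (𝒪 ⧸ I) q
  let f : (Fin 2 → 𝒪) →+ (Fin 2 → 𝒪 ⧸ I) :=
    AddMonoidHom.mk' (fun v i => q (v i)) fun v w => by
      funext i
      exact map_add q _ _
  have hf : ∀ (σ : GQ) (v : Fin 2 → 𝒪), f (r σ *ᵥ v) = σ • f v := by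
    intro σ v
    change (fun i => q ((r σ *ᵥ v) i)) = (mapRep q r σ *ᵥ fun i => q (v i))
    funext i
    simp only [mulVec, dotProduct, Fin.sum_univ_two, map_add, map_mul, mapRep_apply]
  have hn : ∀ x : Fin 2 → 𝒪 ⧸ I, p ^ (j + 1) • x = 0 := by
    intro x
    funext i
    obtain ⟨a, ha⟩ := Ideal.Quotient.mk_surjective (x i)
    rw [Pi.smul_apply, Pi.zero_apply, ← ha, nsmul_eq_mul, ← map_natCast q, ← map_mul]
    refine Ideal.Quotient.eq_zero_iff_mem.2 ?_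
    rw [hI]
    push_cast
    exact Ideal.mul_mem_right _ _ (Ideal.pow_mem_pow hp𝒪 _)
  let Y : AddSubgroup (Fin 2 → 𝒪) :=
    ((LinearMap.lsmul 𝒪 (Fin 2 → 𝒪) (ϖ ^ j)).range).toAddSubgroup
  have hYmem : ∀ v : Fin 2 → 𝒪, v ∈ Y ↔ ∃ v', ϖ ^ j • v' = v := fun v => Iff.rfl
  have hYst : ∀ s ∈ A.inertiaSubgroupIn ℚ, ∀ v ∈ Y, r s *ᵥ v ∈ Y := by
    rintro s - v hv
    obtain ⟨v', rfl⟩ := (hYmem v).1 hv
    exact (hYmem _).2 ⟨r s *ᵥ v', (mulVec_smul _ _ _).symm⟩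
  obtain ⟨v, hv⟩ := h.exists_not
  have hAug : f (ϖ ^ j • v) ∈ Aug A (Fin 2 → 𝒪 ⧸ I) := by
    have h1 := augV_le_closure r (hV v)
    have h2 : AddSubgroup.closure {w : Fin 2 → 𝒪 | ∃ s ∈ A.inertiaSubgroupIn ℚ,
        ∃ v : Fin 2 → 𝒪, w = r s *ᵥ v - v} ≤ (Aug A (Fin 2 → 𝒪 ⧸ I)).comap f := by
      rw [AddSubgroup.closure_le]
      rintro _ ⟨s, hs, u', rfl⟩
      refine AddSubgroup.subset_closure ⟨s, hs, f u', ?_⟩
      rw [map_sub, hf]
    exact h2 h1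
  obtain ⟨y', hy', hker⟩ := hEX.pull hM hn (fun σ v => r σ *ᵥ v) f hf Y hYst
    ((hYmem _).2 ⟨v, rfl⟩) hAug
  have h3 : ∀ y' ∈ AddSubgroup.closure {w | ∃ s ∈ A.inertiaSubgroupIn ℚ, ∃ v ∈ Y,
      w = (fun σ v => r σ *ᵥ v) s v - v}, ∃ y'' ∈ augV A r, ϖ ^ j • y'' = y' := by
    intro y' hy'
    induction hy' using AddSubgroup.closure_induction with
    | mem x hx =>
      obtain ⟨s, hs, v₁, hv₁, rfl⟩ := hx
      obtain ⟨v₂, rfl⟩ := (hYmem _).1 hv₁
      refine ⟨r s *ᵥ v₂ - v₂, Submodule.subset_span ⟨s, hs, v₂, rfl⟩, ?_⟩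
      change ϖ ^ j • (r s *ᵥ v₂ - v₂) = r s *ᵥ (ϖ ^ j • v₂) - ϖ ^ j • v₂
      rw [smul_sub, mulVec_smul]
    | zero => exact ⟨0, Submodule.zero_mem _, smul_zero _⟩
    | add x y _ _ hx hy =>
      obtain ⟨a, ha, rfl⟩ := hx
      obtain ⟨b, hb, rfl⟩ := hy
      exact ⟨a + b, Submodule.add_mem _ ha hb, smul_add _ _ _⟩
    | neg x _ hx =>
      obtain ⟨a, ha, rfl⟩ := hx
      exact ⟨-a, Submodule.neg_mem _ ha, smul_neg _ _⟩
  obtain ⟨y'', hy'', rfl⟩ := h3 y' hy'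
  refine hv y'' hy'' fun i => ?_
  have h4 := congrFun hker i
  have h5 : q (ϖ ^ j * (v i - y'' i)) = 0 := by
    have h6 : q ((ϖ ^ j • v - ϖ ^ j • y'') i) = 0 := h4
    rw [Pi.sub_apply, Pi.smul_apply, Pi.smul_apply, smul_eq_mul, smul_eq_mul, ← mul_sub] at h6
    exact h6
  rw [Ideal.Quotient.eq_zero_iff_mem, Ideal.mem_span_singleton, pow_succ] at h5
  have h6 : ϖ ∣ v i - y'' i := by
    obtain ⟨c, hc⟩ := h5
    refine ⟨c, ?_⟩
    have h7 : ϖ ^ j ≠ 0 := pow_ne_zero _ hϖ.ne_zero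
    apply mul_left_cancel₀ h7
    rw [hc]
    ring
  rw [hmax]
  exact Ideal.mem_span_singleton.2 h6

/-- The data of an ordinary line: `w` is a primitive vector spanning a line stable under the
decomposition group, inertia acts trivially and Frobenius by `z` on the quotient. -/
structure OrdLine (p : ℕ) (A : ValuationSubring Qb) (r : GQ →* M2 𝒪) (w : Fin 2 → 𝒪) (z : 𝒪) :
    Prop where
  prim : IsUnit (w 0) ∨ IsUnit (w 1)
  inertia : ∀ s ∈ A.inertiaSubgroupIn ℚ, ∀ v, ∃ c : 𝒪, r s *ᵥ v - v = c • w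
  decomp : ∀ g ∈ A.decompositionSubgroup ℚ, ∃ c : 𝒪, r g *ᵥ w = c • w
  frob : ∀ Φ : GQ, A.IsFrobeniusAt Φ p → ∀ v, ∃ c : 𝒪, r Φ *ᵥ v - z • v = c • w

theorem ell_smul_self (w : Fin 2 → 𝒪) (c : 𝒪) : ell w (c • w) = 0 := by
  simp only [ell, Pi.smul_apply, smul_eq_mul]
  ring

theorem ell_sub (w v v' : Fin 2 → 𝒪) : ell w (v - v') = ell w v - ell w v' := by
  simp only [ell, Pi.sub_apply]
  ring

theorem ell_add (w v v' : Fin 2 → 𝒪) : ell w (v + v') = ell w v + ell w v' := by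
  simp only [ell, Pi.add_apply]
  ring

theorem ell_smul (w v : Fin 2 → 𝒪) (c : 𝒪) : ell w (c • v) = c * ell w v := by
  simp only [ell, Pi.smul_apply, smul_eq_mul]
  ring

theorem eq_smul_of_ell {w : Fin 2 → 𝒪} (hw : IsUnit (w 0) ∨ IsUnit (w 1)) {v : Fin 2 → 𝒪}
    (h : ell w v = 0) : ∃ c : 𝒪, v = c • w := by
  unfold ell at h
  rcases hw with hw | hw
  · obtain ⟨b, hb⟩ := hw.exists_right_inv
    refine ⟨v 0 * b, ?_⟩
    funext i
    rw [Pi.smul_apply, smul_eq_mul]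
    fin_cases i
    · change v 0 = v 0 * b * w 0
      linear_combination (- v 0) * hb
    · change v 1 = v 0 * b * w 1
      linear_combination b * h - v 1 * hb
  · obtain ⟨b, hb⟩ := hw.exists_right_inv
    refine ⟨v 1 * b, ?_⟩
    funext i
    rw [Pi.smul_apply, smul_eq_mul]
    fin_cases i
    · change v 0 = v 1 * b * w 0
      linear_combination (- b) * h - v 0 * hb
    · change v 1 = v 1 * b * w 1
      linear_combination (- v 1) * hb

theorem exists_dual {w : Fin 2 → 𝒪} (hw : IsUnit (w 0) ∨ IsUnit (w 1)) :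
    ∃ v : Fin 2 → 𝒪, ell w v = 1 := by
  unfold ell
  rcases hw with hw | hw
  · obtain ⟨b, hb⟩ := hw.exists_right_inv
    exact ⟨![0, b], by simp [hb]⟩
  · obtain ⟨b, hb⟩ := hw.exists_right_inv
    exact ⟨![-b, 0], by simp [hb]⟩

theorem frob_inv_mul_mem {Φ Φ' : GQ} (h : A.IsFrobeniusAt Φ p) (h' : A.IsFrobeniusAt Φ' p) :
    Φ⁻¹ * Φ' ∈ A.inertiaSubgroupIn ℚ := by
  refine ⟨(⟨Φ, h.mem_decompositionSubgroup⟩ : A.decompositionSubgroup ℚ)⁻¹ *
    ⟨Φ', h'.mem_decompositionSubgroup⟩, ?_, rfl⟩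
  change _ ∈ MonoidHom.ker _
  rw [MonoidHom.mem_ker, map_mul, map_inv, inv_mul_eq_one]
  ext x
  exact (h.smul_residue_eq x).trans (h'.smul_residue_eq x).symm

/-- **Residually ordinary and flat implies ordinary.** -/
theorem exists_ordLine (hEX : AugExact p A) (hp𝒪 : (p : 𝒪) ∈ maximalIdeal 𝒪)
    [Finite (ResidueField 𝒪)] {r : GQ →* M2 𝒪} (hflat : FlatRep p 𝒪 r) (h : ResOrd A r)
    (hne : ∃ s ∈ A.inertiaSubgroupIn ℚ, mapRep (residue 𝒪) r s ≠ 1)
    (hΦ : ∃ Φ : GQ, A.IsFrobeniusAt Φ p) :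
    ∃ (w : Fin 2 → 𝒪) (z : 𝒪), OrdLine p A r w z := by
  obtain ⟨s, hs, hs1⟩ := hne
  -- a primitive vector
  obtain ⟨w, hw, hprim⟩ : ∃ w ∈ augV A r, IsUnit (w 0) ∨ IsUnit (w 1) := by
    by_contra hcon
    push Not at hcon
    apply hs1
    have key : ∀ j i, residue 𝒪 (r s i j) = (1 : M2 (ResidueField 𝒪)) i j := by
      intro j i
      have hmem : r s *ᵥ (Pi.single j 1 : Fin 2 → 𝒪) - Pi.single j 1 ∈ augV A r :=
        Submodule.subset_span ⟨s, hs, _, rfl⟩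
      obtain ⟨h0, h1⟩ := hcon _ hmem
      have h2 : ¬ IsUnit ((r s *ᵥ (Pi.single j 1 : Fin 2 → 𝒪) - Pi.single j 1 :
          Fin 2 → 𝒪) i) := by
        fin_cases i
        · exact h0
        · exact h1
      rw [← mem_nonunits_iff, ← mem_maximalIdeal, ← residue_eq_zero_iff, mulVec_single_one,
        Pi.sub_apply, map_sub, sub_eq_zero] at h2
      refine h2.trans ?_
      rw [Pi.single_apply, Matrix.one_apply]
      split_ifs <;> simp
    ext i j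
    rw [mapRep_apply]
    exact key j i
  have hspan : ∀ x ∈ augV A r, ∃ c : 𝒪, x = c • w := fun x hx =>
    eq_smul_of_ell hprim (ell_eq_zero hEX hp𝒪 hflat h hw hx)
  have hin : ∀ s ∈ A.inertiaSubgroupIn ℚ, ∀ v, ∃ c : 𝒪, r s *ᵥ v - v = c • w := fun s hs v =>
    hspan _ (Submodule.subset_span ⟨s, hs, v, rfl⟩)
  have hdec : ∀ g ∈ A.decompositionSubgroup ℚ, ∃ c : 𝒪, r g *ᵥ w = c • w := fun g hg =>
    hspan _ (augV_stable r hg hw)
  obtain ⟨Φ, hΦ⟩ := hΦ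
  obtain ⟨v₀, hv₀⟩ := exists_dual hprim
  have hfr : ∀ v, ∃ c : 𝒪, r Φ *ᵥ v - ell w (r Φ *ᵥ v₀) • v = c • w := by
    intro v
    obtain ⟨a, ha⟩ : ∃ a : 𝒪, v - ell w v • v₀ = a • w :=
      eq_smul_of_ell hprim (by rw [ell_sub, ell_smul, hv₀, mul_one, sub_self])
    obtain ⟨b, hb⟩ := hdec Φ hΦ.mem_decompositionSubgroup
    have h1 : v = ell w v • v₀ + a • w := by rw [← ha]; abel
    refine eq_smul_of_ell hprim ?_
    have h2 : r Φ *ᵥ v = ell w v • (r Φ *ᵥ v₀) + (a * b) • w := by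
      conv_lhs => rw [h1]
      rw [mulVec_add, mulVec_smul, mulVec_smul, hb, smul_smul]
    rw [ell_sub, h2, ell_add, ell_smul, ell_smul_self, ell_smul]
    ring
  refine ⟨w, ell w (r Φ *ᵥ v₀), hprim, hin, hdec, fun Φ' hΦ' v => ?_⟩
  obtain ⟨c, hc⟩ := hin _ (frob_inv_mul_mem hΦ hΦ') v
  obtain ⟨d, hd⟩ := hfr v
  obtain ⟨b, hb⟩ := hdec Φ hΦ.mem_decompositionSubgroup
  refine ⟨d + c * b, ?_⟩
  have h1 : r Φ' *ᵥ v = r Φ *ᵥ v + (c * b) • w := by
    have h2 : r Φ' = r Φ * r (Φ⁻¹ * Φ') := by rw [← map_mul, mul_inv_cancel_left]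
    have h3 : r (Φ⁻¹ * Φ') *ᵥ v = v + c • w := by rw [← hc]; abel
    rw [h2, ← mulVec_mulVec, h3, mulVec_add, mulVec_smul, hb, smul_smul]
  rw [h1, add_smul, ← hd]
  abel

end Line

end Fermat.Agent.OrdOld
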