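import Fermat.Agent.OrdOld.Main

/-!
# Modular Galois representations of level prime to `p`: the ordinary case, final statements
-/

set_option autoImplicit false
set_option linter.unusedSectionVars false
set_option linter.style.haveILetI false

noncomputable section

open Module GaloisRep Fermat.Agent.HopfOrder IsLocalRing Matrix ModularCurve
open ModularCurve.Period CongruenceSubgroup

namespace Fermat.Agent.OrdOld

open Fermat.Agent.DefRing (M2 MatCont mapRep mapRep_apply Red)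
open Fermat.Agent.FlatT Fermat.Agent.HGModule Fermat.Agent.QuadRep Fermat.Agent.LocEll
  Fermat.Agent.Tate Fermat.Agent.HeckeHom

local notation "Qb" => AlgebraicClosure ℚ

section Tau

variable {p : ℕ} [hp : Fact p.Prime] {A : ValuationSubring Qb}
  {O : Type} [CommRing O] [IsDomain O] [IsDiscreteValuationRing O]
  [IsAdicComplete (maximalIdeal O) O] [Finite (ResidueField O)] [CharZero O]
  (hpO : (p : O) ∈ maximalIdeal O)

theorem ell_mulVec (M : M2 O) (u v : Fin 2 → O) : ell (M *ᵥ u) (M *ᵥ v) = M.det * ell u v := by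
  simp only [ell, mulVec, dotProduct, Fin.sum_univ_two, Matrix.det_fin_two]
  ring

theorem OrdLine.smul_line {r : GQ →* M2 O} {w : Fin 2 → O} {z : O} (hL : OrdLine p A r w z)
    {s : GQ} (hs : s ∈ A.inertiaSubgroupIn ℚ) : r s *ᵥ w = (r s).det • w := by
  obtain ⟨c, hc⟩ := hL.inertia s hs w
  obtain ⟨v, hv⟩ := exists_dual hL.prim
  obtain ⟨d, hd⟩ := hL.inertia s hs v
  have h1 : r s *ᵥ v = v + d • w := by rw [← hd]; abel
  have h2 : r s *ᵥ w = (1 + c) • w := by rw [add_smul, one_smul, ← hc]; abel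
  have h3 := ell_mulVec (r s) w v
  rw [h1, h2, hv] at h3
  have h4 : ell ((1 + c) • w) (v + d • w) = (1 + c) * ell w v := by
    simp only [ell, Pi.add_apply, Pi.smul_apply, smul_eq_mul]
    ring
  rw [h4, hv, mul_one, mul_one] at h3
  rw [h2, h3]

include hpO in
/-- **Flat ordinary representations are trivial at the Kummer element.** -/
theorem OrdLine.tau_eq_one (hA : A.LiesOverPrime p) (hp2 : p ≠ 2) {r : GQ →* M2 O}
    {w : Fin 2 → O} {z : O} (hL : OrdLine p A r w z)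
    (hdet : ∀ σ, (r σ).det = cyc p O hpO σ) (hflat : FlatRep p O r) {φ₀ τ : GQ}
    (hpair : ORD.Pair p A φ₀ τ) : r τ = 1 := by
  have hfr : Finite (O ⧸ maximalIdeal O) := ‹Finite (ResidueField O)›
  have key : ∀ (n : ℕ) (v : Fin 2 → O) (i : Fin 2),
      (r τ *ᵥ v - v) i ∈ maximalIdeal O ^ n := by
    intro n v i
    have hB : Finite (O ⧸ maximalIdeal O ^ n) :=
      Ideal.finite_quotient_pow (IsNoetherian.noetherian _) n
    have h1 := hflat (O ⧸ maximalIdeal O ^ n) (Ideal.Quotient.mk _)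
    let q : O →+* O ⧸ maximalIdeal O ^ n := Ideal.Quotient.mk _
    let _ := matAct (mapRep q r)
    let red : (Fin 2 → O) → (Fin 2 → O ⧸ maximalIdeal O ^ n) := fun v i => q (v i)
    have hred : ∀ σ v, σ • red v = red (r σ *ᵥ v) := by
      intro σ v
      exact (map_mulVec' q (r σ) v).symm
    have hsub : ∀ u v, red (u - v) = red u - red v := fun u v => funext fun i => map_sub q _ _
    have hsm : ∀ (c : O) v, red (c • v) = q c • red v := fun c v =>
      funext fun i => map_mul q _ _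
    let L : AddSubgroup (Fin 2 → O ⧸ maximalIdeal O ^ n) :=
      { carrier := {x | ∃ c : O, x = red (c • w)}
        zero_mem' := ⟨0, by rw [zero_smul]; exact (funext fun i => (map_zero q).symm)⟩
        add_mem' := by
          rintro _ _ ⟨a, rfl⟩ ⟨b, rfl⟩
          exact ⟨a + b, by rw [add_smul]; exact (funext fun i => (map_add q _ _).symm)⟩
        neg_mem' := by
          rintro _ ⟨a, rfl⟩
          exact ⟨-a, by rw [neg_smul]; exact (funext fun i => (map_neg q _).symm)⟩ }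
    have hpn : ∀ x : Fin 2 → O ⧸ maximalIdeal O ^ n, p ^ n • x = 0 := by
      intro x
      funext j
      rw [Pi.smul_apply, nsmul_eq_mul, Pi.zero_apply]
      have h2 : ((p ^ n : ℕ) : O ⧸ maximalIdeal O ^ n) = q ((p : O) ^ n) := by
        rw [map_pow, map_natCast, Nat.cast_pow]
      rw [h2, show q ((p : O) ^ n) = 0 from
        Ideal.Quotient.eq_zero_iff_mem.2 (Ideal.pow_mem_pow hpO n), zero_mul]
    have h2 := FTau.Pair.tau_trivial hA hp2 hpair h1 L (n := n) (fun z _ => hpn z) (by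
      rintro s hs _ ⟨c, rfl⟩ k hk
      rw [hred, mulVec_smul, hL.smul_line hs, hdet]
      have h3 := cyc_sub_mem hpO n k s hk
      have h4 : q (cyc p O hpO s) = (k : O ⧸ maximalIdeal O ^ n) := by
        rw [← map_natCast q, ← sub_eq_zero, ← map_sub]
        exact Ideal.Quotient.eq_zero_iff_mem.2 h3
      rw [smul_comm, hsm, h4, ← Nat.cast_smul_eq_nsmul (O ⧸ maximalIdeal O ^ n)]) (red v) (by
      intro s hs
      obtain ⟨c, hc⟩ := hL.inertia s hs v
      exact ⟨c, by rw [hred, ← hsub, hc]⟩)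
    have h5 : red (r τ *ᵥ v - v) = 0 := by rw [hsub, ← hred, h2, sub_self]
    exact Ideal.Quotient.eq_zero_iff_mem.1 (congrFun h5 i)
  ext i j
  rw [← sub_eq_zero]
  have h1 : ∀ n, r τ i j - (1 : M2 O) i j ∈ maximalIdeal O ^ n := by
    intro n
    have h2 := key n (Pi.single j 1) i
    rw [Pi.sub_apply, mulVec_single_one, Matrix.col_apply, Pi.single_apply] at h2
    rw [Matrix.one_apply]
    exact h2
  have h3 : r τ i j - (1 : M2 O) i j ∈ (⨅ n : ℕ, maximalIdeal O ^ n) := by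
    rw [Ideal.mem_iInf]; exact h1
  rw [Ideal.iInf_pow_eq_bot_of_isLocalRing _ (maximalIdeal.isMaximal O).ne_top] at h3
  exact h3

end Tau

section Sep

variable {p : ℕ} {O : Type} [CommRing O] [IsDomain O] [IsDiscreteValuationRing O]
  (hpO : (p : O) ∈ maximalIdeal O)

include hpO in
theorem separated_pi {k : Type} (x : k → O) (h : ∀ m : ℕ, ∃ y, x = (p : O) ^ m • y) :
    x = 0 := by
  funext i
  have h1 : x i ∈ (⨅ n : ℕ, maximalIdeal O ^ n) := by
    rw [Ideal.mem_iInf]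
    intro n
    obtain ⟨y, hy⟩ := h n
    rw [hy, Pi.smul_apply, smul_eq_mul]
    exact Ideal.mul_mem_right _ _ (Ideal.pow_mem_pow hpO n)
  rw [Ideal.iInf_pow_eq_bot_of_isLocalRing _ (maximalIdeal.isMaximal O).ne_top] at h1
  exact h1

end Sep

section Row

theorem sum_row {κ : Type} [Fintype κ] [DecidableEq κ] {R : Type*} [CommRing R] {O : Type}
    [CommRing O] (f : O →+* R) (Z : κ → κ → ℤ) (i : κ) (z c₀ : O) (v : κ → R) :
    ∑ j, f (z * ((Z i j : ℤ) : O) - (if i = j then c₀ else 0)) * v j =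
      f z * ∑ j, ((Z i j : ℤ) : R) * v j - f c₀ * v i := by
  simp only [map_sub, map_mul, map_intCast, sub_mul, Finset.sum_sub_distrib, mul_assoc,
    ← Finset.mul_sum]
  congr 1
  rw [Finset.sum_eq_single i]
  · rw [if_pos rfl]
  · intro j _ hj
    rw [if_neg (Ne.symm hj), map_zero, zero_mul]
  · intro h
    exact absurd (Finset.mem_univ i) h

end Row

section Data

variable {p : ℕ} [hp : Fact p.Prime] {N : ℕ} [NeZero N]
  {O : Type} [CommRing O] [IsDomain O] [IsDiscreteValuationRing O]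
  [IsAdicComplete (maximalIdeal O) O] [Finite (ResidueField O)] [CharZero O]
  (hpO : (p : O) ∈ maximalIdeal O)
  {E : Type*} [Field E] [CharZero E] (ι : O →+* E) (hι : Function.Injective ι)

/-- The data at level `N` prime to `p`. -/
theorem data {S : Finset ℕ} (hS : ∀ q : ℕ, q.Prime → q ∣ N → q ∈ (↑S : Set ℕ)) (hpS : p ∉ S)
    (hpN : ¬ p ∣ N) (hp2 : p ≠ 2) (r : GQ →* M2 O) (hr : MatCont O r)
    (hspan : Submodule.span O (Set.range r) = ⊤)
    (hY : Yeig (jIn N p (↑S : Set ℕ) hS).toModule r {p} ≠ ⊥) :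
    FlatRep p O r ∧ (∀ σ, (r σ).det = cyc p O hpO σ) ∧
    ∀ {A : ValuationSubring Qb}, A.LiesOverPrime p → ∀ {w : Fin 2 → O} {z : O},
      OrdLine p A r w z → ∀ y ∈ Yeig (jIn N p (↑S : Set ℕ) hS).toModule r {p},
        z ^ 2 • y - z • (QM O (jIn N p (↑S : Set ℕ) hS).toModule
          (CuspForm.heckeAlgebra.T hp.out hpN (fun h => hpS (Finset.mem_coe.1 h))) *ᵥ y) +
          (p : O) • y = 0 := by
  classical
  have hpS' : p ∉ (↑S : Set ℕ) := fun h => hpS (Finset.mem_coe.1 h)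
  set D := (jIn N p (↑S : Set ℕ) hS).toModule with hD
  obtain ⟨Ψ, hΨ⟩ := exists_Psi D hpO r {p} hr hspan
  have hsat : ∀ (m : ℕ) (x : Fin (rk D) → O), (p : O) ^ m • x ∈ Yeig D r {p} →
      x ∈ Yeig D r {p} := fun m x hx =>
    Yeig_sat D r {p} (pow_ne_zero _ (Nat.cast_ne_zero.2 hp.out.ne_zero)) hx
  have hfl : ∀ m, @IsFlatMod p (Fin (rk D) → O ⧸ Ip p O m) _ (kAct (PR D hpO m)) := fun m =>
    isFlatMod_X D hpO m (finite_lev _ m (finite_jIn N p _ hS m)) (isFlatMod_jIn N p hpN _ hS m)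
  have hfin : ∀ m, Finite (Fin (rk D) → O ⧸ Ip p O m) := fun m => by
    have := finite_quot (p := p) (𝒪 := O) m
    infer_instance
  have hred : ∀ m (σ : GQ) (x : Fin (rk D) → O),
      redX p _ m (kHom (PM D hpO) σ x) = kHom (PR D hpO m) σ (redX p _ m x) := fun m σ x =>
    redX_PM D hpO m σ x
  refine ⟨?_, det_eq_cyc D hpO r {p} hr hΨ hY, ?_⟩
  · refine flatRep_of_lattice hpO (kHom (PM D hpO)) (separated_pi hpO) (fun m => ?_)
      (Yeig D r {p}) hsat (fun a x h => smul_eq_zero.1 h) r Ψ hΨ hY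
    exact ⟨Fin (rk D) → O ⧸ Ip p O m, inferInstance, hfin m, kAct (PR D hpO m),
      redX p _ m, hfl m, hred m, fun x hx => redX_eq_zero hx⟩
  · intro A hA w z hL y hy
    obtain ⟨Φ, hΦ⟩ := Frob.exists_isFrobeniusAt hp.out hA
    refine hecke_rel (kHom (PM D hpO)) ((QM O D _).mulVecLin) (augExact hA hp2) (Φ := Φ)
      (fun σ => ?_) (separated_pi hpO) (fun m => ?_) (Yeig D r {p})
      (fun σ y hy => PM_mem_Yeig D hpO r {p} hy σ) (fun y hy => QM_mem_Yeig D r {p} hy _) hsat r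
      hspan Ψ hΨ hL hΦ hy
    · refine LinearMap.ext fun x => ?_
      change PM D hpO σ *ᵥ (QM O D _ *ᵥ x) = QM O D _ *ᵥ (PM D hpO σ *ᵥ x)
      rw [mulVec_mulVec, mulVec_mulVec, Q_comm_P]
    · refine ⟨Fin (rk D) → O ⧸ Ip p O m, inferInstance, hfin m, kAct (PR D hpO m), m,
        redX p _ m, hfl m, fun x => ?_, hred m, fun x hx => redX_eq_zero hx, fun x => ?_⟩
      · funext j
        rw [Pi.smul_apply, nsmul_eq_mul, Pi.zero_apply]
        have h2 : ((p ^ m : ℕ) : O ⧸ Ip p O m) = Ideal.Quotient.mk _ ((p : O) ^ m) := by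
          rw [map_pow, map_natCast, Nat.cast_pow]
        rw [h2, Ideal.Quotient.eq_zero_iff_mem.2 (Ideal.mem_span_singleton_self _), zero_mul]
      · exact aug_X D hpO m _ (aug_lev p N hA hp2 hpN hΦ hS hpS' m) x

include hι in
/-- descent of eigenvectors -/
theorem exists_row {S : Finset ℕ} (D : HeckeGaloisModule p N (↑S : Set ℕ)) (r : GQ →* M2 O)
    (a : ℕ → E) (ha : ∀ l : ℕ, l.Prime → l ∉ S → l ≠ p → ∀ A : ValuationSubring Qb,
      A.LiesOverPrime l → ∀ τ : GQ, A.IsFrobeniusAt τ l → ι (r τ).trace = a l)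
    (x : Fin (rk D) → E)
    (hx : ∀ (l : ℕ) (hl : l.Prime) (hlN : ¬ l ∣ N) (hlS : l ∉ (↑S : Set ℕ)), l ≠ p →
      ((Q D (CuspForm.heckeAlgebra.T hl hlN hlS)).map (Int.castRingHom E)) *ᵥ x = a l • x)
    (c : Fin (rk D) → O) (hc : ∑ i, ι (c i) * x i ≠ 0) :
    ∃ y ∈ Yeig D r {p}, ∑ i, c i * y i ≠ 0 := by
  classical
  obtain ⟨y, hy0, hy⟩ := descend_ne ι hι x c hc
  refine ⟨y, ?_, hy0⟩
  intro l hl hlN hlS hlp A hA τ hτ
  have hlp' : l ≠ p := fun h => hlp (by rw [h]; exact Finset.mem_singleton_self p)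
  have h1 := hx l hl hlN hlS hlp'
  rw [← ha l hl (fun h => hlS (Finset.mem_coe.mpr h)) hlp' A hA τ hτ] at h1
  ext i
  have h2 := congrFun h1 i
  have h3 := hy (fun j => ((Q D (CuspForm.heckeAlgebra.T hl hlN hlS)) i j : O) -
    (if i = j then (r τ).trace else 0)) (by
      simp only [map_sub, sub_mul, Finset.sum_sub_distrib, map_intCast]
      rw [sub_eq_zero]
      simp only [Matrix.mulVec, dotProduct, Matrix.map_apply, Pi.smul_apply, smul_eq_mul] at h2
      refine h2.trans ?_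
      rw [Finset.sum_eq_single i]
      · rw [if_pos rfl]
      · intro j _ hj
        rw [if_neg (Ne.symm hj), map_zero, zero_mul]
      · intro h
        exact absurd (Finset.mem_univ i) h)
  simp only [sub_mul, Finset.sum_sub_distrib] at h3
  rw [sub_eq_zero] at h3
  simp only [Matrix.mulVec, dotProduct, Matrix.map_apply, Pi.smul_apply, smul_eq_mul]
  refine h3.trans ?_
  rw [Finset.sum_eq_single i]
  · rw [if_pos rfl]
  · intro j _ hj
    rw [if_neg (Ne.symm hj), zero_mul]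
  · intro h
    exact absurd (Finset.mem_univ i) h

include hι in
/-- The data at level `N` prime to `p`, for eigenspaces over a big field. -/
theorem dataE' (hpN : ¬ p ∣ N) (hp2 : p ≠ 2) {m : ℕ} (hm : m ≠ 0)
    (hNm : ∀ q : ℕ, q.Prime → q ∣ N → q ∣ m) (a : ℕ → E)
    {φ : parabolicHoms E (Gamma0 N) E} (hφ0 : φ ≠ 0) (hφ : φ ∈ VE E N m a)
    (r : GQ →* M2 O) (hr : MatCont O r)
    (ha : ∀ s : ℕ, s.Prime → ¬ s ∣ m → ∀ B : ValuationSubring Qb, B.LiesOverPrime s →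
      ∀ τ : GQ, B.IsFrobeniusAt τ s → ι (r τ).trace = a s)
    (hspan : Submodule.span (ResidueField O) (Set.range (mapRep (residue O) r)) = ⊤) :
    FlatRep p O r ∧ (∀ σ, (r σ).det = cyc p O hpO σ) ∧
    ∀ {A : ValuationSubring Qb}, A.LiesOverPrime p → ∀ {w : Fin 2 → O} {z : O},
      OrdLine p A r w z → ∀ ψ ∈ VE E N m a,
        ι z • parHecke E E hp.out hpN ψ = ((ι z) ^ 2 + p) • ψ := by
  classical
  have hspan' : Submodule.span O (Set.range r) = ⊤ :=
    span_top_of_red hspan (r := r) (fun σ i j o ho => by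
      rw [← residue_eq_zero_iff, map_sub, sub_eq_zero]
      exact ho.symm)
  set S : Finset ℕ := m.primeFactors.erase p with hSdef
  have hS : ∀ q : ℕ, q.Prime → q ∣ N → q ∈ (↑S : Set ℕ) := fun q hq hqN =>
    Finset.mem_coe.2 (Finset.mem_erase.2 ⟨fun h => hpN (h ▸ hqN),
      Nat.mem_primeFactors.2 ⟨hq, hNm q hq hqN, hm⟩⟩)
  have hpS : p ∉ S := Finset.notMem_erase p _
  have hSm : ∀ l : ℕ, l.Prime → l ∉ S → l ≠ p → ¬ l ∣ m := fun l hl hlS hlp h =>
    hlS (Finset.mem_erase.2 ⟨hlp, Nat.mem_primeFactors.2 ⟨hl, h, hm⟩⟩)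
  let I := jIn N p (↑S : Set ℕ) hS
  have hrow : ∀ ψ ∈ VE E N m a, ∀ c : Fin (rk I.toModule) → O,
      ∑ i, ι (c i) * coord I E ψ i ≠ 0 →
      ∃ y ∈ Yeig I.toModule r {p}, ∑ i, c i * y i ≠ 0 := by
    intro ψ hψ c hc
    refine exists_row ι hι I.toModule r a (fun l hl hlS hlp => ha l hl (hSm l hl hlS hlp))
      (coord I E ψ) (fun l hl hlN hlS hlp => ?_) c hc
    have h1 := hψ l hl hlN (hSm l hl (fun h => hlS (Finset.mem_coe.2 h)) hlp)
    rw [← coord_theta, theta_T I.hES I.hS E hl hlN hlS, h1, map_smul]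
  have hY : Yeig I.toModule r {p} ≠ ⊥ := by
    have h1 : coord I E φ ≠ 0 := fun h => hφ0 ((coord I E).map_eq_zero_iff.mp h)
    obtain ⟨i, hi⟩ : ∃ i, coord I E φ i ≠ 0 := by
      by_contra hcon
      push Not at hcon
      exact h1 (funext hcon)
    obtain ⟨y, hy, hy0⟩ := hrow φ hφ (Pi.single i 1) (by
      rw [Finset.sum_eq_single i]
      · rw [Pi.single_eq_same, map_one, one_mul]
        exact hi
      · intro j _ hj
        rw [Pi.single_eq_of_ne hj, map_zero, zero_mul]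
      · intro h
        exact absurd (Finset.mem_univ i) h)
    intro hbot
    rw [hbot, Submodule.mem_bot] at hy
    apply hy0
    rw [hy]
    simp
  obtain ⟨hflat, hdet, hrel⟩ := data hpO hS hpS hpN hp2 r hr hspan' hY
  refine ⟨hflat, hdet, fun {A} hA {w z} hL ψ hψ => ?_⟩
  have hpS' : p ∉ (↑S : Set ℕ) := fun h => hpS (Finset.mem_coe.1 h)
  apply (coord I E).injective
  rw [map_smul, map_smul, ← theta_T I.hES I.hS E hp.out hpN hpS', coord_theta]
  set t : CuspForm.heckeAlgebra N 2 (↑S : Set ℕ) := CuspForm.heckeAlgebra.T hp.out hpN hpS' with ht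
  set x := coord I E ψ with hx
  funext i
  by_contra hne
  let c : Fin (rk I.toModule) → O := fun j => z * ((Q I.toModule t i j : ℤ) : O) -
    (if i = j then z ^ 2 + (p : O) else 0)
  obtain ⟨y, hy, hy0⟩ := hrow ψ hψ c (by
    intro h0
    apply hne
    have h1 := sum_row ι (fun i j => Q I.toModule t i j) i z (z ^ 2 + (p : O)) x
    rw [map_add, map_pow, map_natCast] at h1
    have h2 := h1.symm.trans h0
    rw [sub_eq_zero] at h2
    exact h2)
  apply hy0
  have h1 := congrFun (hrel hA hL y hy) i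
  have h2 := sum_row (RingHom.id O) (fun i j => Q I.toModule t i j) i z (z ^ 2 + (p : O)) y
  simp only [RingHom.id_apply] at h2
  rw [h2]
  have h3 : (QM O I.toModule t *ᵥ y) i = ∑ j, ((Q I.toModule t i j : ℤ) : O) * y j := rfl
  rw [← h3]
  simp only [Pi.add_apply, Pi.sub_apply, Pi.smul_apply, smul_eq_mul, Pi.zero_apply] at h1
  linear_combination - h1

include hpO in
theorem exists_ne_one {A : ValuationSubring Qb} (hA : A.LiesOverPrime p) (hp2 : p ≠ 2)
    {r : GQ →* M2 O} (hdet : ∀ σ, (r σ).det = cyc p O hpO σ) :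
    ∃ s ∈ A.inertiaSubgroupIn ℚ, mapRep (residue O) r s ≠ 1 := by
  obtain ⟨s, hs, h1⟩ := exists_inertia_cyc hpO hA hp2
  refine ⟨s, hs, fun h => h1 ?_⟩
  have h2 : (mapRep (residue O) r s).det = residue O (r s).det :=
    (RingHom.map_det (residue O) (r s)).symm
  rw [← hdet, ← h2, h, det_one]

include hpO hι in
/-- **Modular representations of level prime to `p`, residually ordinary at `p`**: the ordinary
line, the action of `T_p` and the triviality of the Kummer element. -/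
theorem ordOld' (hpN : ¬ p ∣ N) (hp2 : p ≠ 2) {m : ℕ} (hm : m ≠ 0)
    (hNm : ∀ q : ℕ, q.Prime → q ∣ N → q ∣ m) (a : ℕ → E)
    {φ : parabolicHoms E (Gamma0 N) E} (hφ0 : φ ≠ 0) (hφ : φ ∈ VE E N m a)
    (r : GQ →* M2 O) (hr : MatCont O r)
    (ha : ∀ s : ℕ, s.Prime → ¬ s ∣ m → ∀ B : ValuationSubring Qb, B.LiesOverPrime s →
      ∀ τ : GQ, B.IsFrobeniusAt τ s → ι (r τ).trace = a s)
    (hspan : Submodule.span (ResidueField O) (Set.range (mapRep (residue O) r)) = ⊤)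
    {A : ValuationSubring Qb} (hA : A.LiesOverPrime p) (hord : ResOrd A r) :
    ∃ (w : Fin 2 → O) (z : O), OrdLine p A r w z ∧
      (∀ ψ ∈ VE E N m a, ι z • parHecke E E hp.out hpN ψ = ((ι z) ^ 2 + p) • ψ) ∧
      ∀ {φ₀ τ : GQ}, ORD.Pair p A φ₀ τ → r τ = 1 := by
  obtain ⟨hflat, hdet, hrel⟩ := dataE' hpO ι hι hpN hp2 hm hNm a hφ0 hφ r hr ha hspan
  obtain ⟨w, z, hL⟩ := exists_ordLine (augExact hA hp2) hpO hflat hord
    (exists_ne_one hpO hA hp2 hdet) (Frob.exists_isFrobeniusAt hp.out hA)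
  exact ⟨w, z, hL, hrel hA hL, fun {_ _} hpair => hL.tau_eq_one hpO hA hp2 hdet hflat hpair⟩

include hpO hι in
/-- the case `N ∣ m` -/
theorem dataE (hpN : ¬ p ∣ N) (hp2 : p ≠ 2) {m : ℕ} (hm : m ≠ 0) (hNm : N ∣ m) (a : ℕ → E)
    {φ : parabolicHoms E (Gamma0 N) E} (hφ0 : φ ≠ 0) (hφ : φ ∈ VE E N m a)
    (r : GQ →* M2 O) (hr : MatCont O r)
    (ha : ∀ s : ℕ, s.Prime → ¬ s ∣ m → ∀ B : ValuationSubring Qb, B.LiesOverPrime s →
      ∀ τ : GQ, B.IsFrobeniusAt τ s → ι (r τ).trace = a s)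
    (hspan : Submodule.span (ResidueField O) (Set.range (mapRep (residue O) r)) = ⊤) :
    FlatRep p O r ∧ (∀ σ, (r σ).det = cyc p O hpO σ) ∧
    ∀ {A : ValuationSubring Qb}, A.LiesOverPrime p → ∀ {w : Fin 2 → O} {z : O},
      OrdLine p A r w z → ∀ ψ ∈ VE E N m a,
        ι z • parHecke E E hp.out hpN ψ = ((ι z) ^ 2 + p) • ψ :=
  dataE' hpO ι hι hpN hp2 hm (fun _ _ h => h.trans hNm) a hφ0 hφ r hr ha hspan

include hpO hι in
/-- the case `N ∣ m` -/
theorem ordOld (hpN : ¬ p ∣ N) (hp2 : p ≠ 2) {m : ℕ} (hm : m ≠ 0) (hNm : N ∣ m) (a : ℕ → E)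
    {φ : parabolicHoms E (Gamma0 N) E} (hφ0 : φ ≠ 0) (hφ : φ ∈ VE E N m a)
    (r : GQ →* M2 O) (hr : MatCont O r)
    (ha : ∀ s : ℕ, s.Prime → ¬ s ∣ m → ∀ B : ValuationSubring Qb, B.LiesOverPrime s →
      ∀ τ : GQ, B.IsFrobeniusAt τ s → ι (r τ).trace = a s)
    (hspan : Submodule.span (ResidueField O) (Set.range (mapRep (residue O) r)) = ⊤)
    {A : ValuationSubring Qb} (hA : A.LiesOverPrime p) (hord : ResOrd A r) :
    ∃ (w : Fin 2 → O) (z : O), OrdLine p A r w z ∧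
      (∀ ψ ∈ VE E N m a, ι z • parHecke E E hp.out hpN ψ = ((ι z) ^ 2 + p) • ψ) ∧
      ∀ {φ₀ τ : GQ}, ORD.Pair p A φ₀ τ → r τ = 1 :=
  ordOld' hpO ι hι hpN hp2 hm (fun _ _ h => h.trans hNm) a hφ0 hφ r hr ha hspan hA hord

end Data

section DataE

variable {p : ℕ} [hp : Fact p.Prime] {N : ℕ} [NeZero N]
  {O : Type} [CommRing O] [IsDomain O] [IsDiscreteValuationRing O]
  [IsAdicComplete (maximalIdeal O) O] [Finite (ResidueField O)] [CharZero O]
  (hpO : (p : O) ∈ maximalIdeal O)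
  {E : Type} [Field E] [CharZero E] (ι : O →+* E) (hι : Function.Injective ι)

include hpO hι in
/-- the form over a field -/
theorem ordOldE' (hpN : ¬ p ∣ N) (hp2 : p ≠ 2) {m : ℕ} (hm : m ≠ 0)
    (hNm : ∀ q : ℕ, q.Prime → q ∣ N → q ∣ m) (a : ℕ → E)
    {φ : parabolicHoms E (Gamma0 N) E} (hφ0 : φ ≠ 0) (hφ : φ ∈ VE E N m a)
    (r : GQ →* M2 O) (hr : MatCont O r)
    (ha : ∀ s : ℕ, s.Prime → ¬ s ∣ m → ∀ B : ValuationSubring Qb, B.LiesOverPrime s →
      ∀ τ : GQ, B.IsFrobeniusAt τ s → ι (r τ).trace = a s)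
    (hspan : Submodule.span (ResidueField O) (Set.range (mapRep (residue O) r)) = ⊤)
    {A : ValuationSubring Qb} (hA : A.LiesOverPrime p) (hord : ResOrd A r) :
    ∃ z : E, (∃ w : Fin 2 → E, w ≠ 0 ∧
      (∀ s ∈ A.decompositionSubgroup ℚ, ∃ c : E, mapRep ι r s *ᵥ w = c • w) ∧
      (∀ s ∈ A.inertiaSubgroupIn ℚ, ∀ u, ∃ c : E, mapRep ι r s *ᵥ u - u = c • w) ∧
      ∀ Φ, A.IsFrobeniusAt Φ p → ∀ u, ∃ c : E, mapRep ι r Φ *ᵥ u - z • u = c • w) ∧
      (∀ ψ ∈ VE E N m a, ψ ≠ 0 → ∀ b : E, parHecke E E hp.out hpN ψ = b • ψ →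
        z ^ 2 - b * z + p = 0) ∧
      (∀ ψ ∈ VE E N m a, z • parHecke E E hp.out hpN ψ = (z ^ 2 + p) • ψ) ∧
      ∀ {φ₀ τ : GQ}, ORD.Pair p A φ₀ τ → r τ = 1 := by
  obtain ⟨w, z, hL, hrel, hτ⟩ := ordOld' hpO ι hι hpN hp2 hm hNm a hφ0 hφ r hr ha hspan hA hord
  have hlin : ∀ (σ : GQ) (x : O), (∀ v, ∃ c : O, r σ *ᵥ v - x • v = c • w) →
      ∀ u : Fin 2 → E, ∃ c : E, mapRep ι r σ *ᵥ u - ι x • u = c • fun i => ι (w i) := by
    intro σ x h u
    obtain ⟨c₀, h₀⟩ := h (Pi.single 0 1)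
    obtain ⟨c₁, h₁⟩ := h (Pi.single 1 1)
    refine ⟨u 0 * ι c₀ + u 1 * ι c₁, ?_⟩
    funext i
    have e₀ := congrArg ι (congrFun h₀ i)
    have e₁ := congrArg ι (congrFun h₁ i)
    rw [Pi.sub_apply, mulVec_single_one, Matrix.col_apply, Pi.smul_apply, Pi.smul_apply,
      smul_eq_mul, smul_eq_mul, map_sub, map_mul, map_mul] at e₀ e₁
    rw [Pi.sub_apply, Pi.smul_apply, Pi.smul_apply, smul_eq_mul, smul_eq_mul, mulVec, dotProduct,
      Fin.sum_univ_two]
    rw [mapRep_apply, mapRep_apply]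
    fin_cases i
    · simp at e₀ e₁ ⊢
      linear_combination u 0 * e₀ + u 1 * e₁
    · simp at e₀ e₁ ⊢
      linear_combination u 0 * e₀ + u 1 * e₁
  refine ⟨ι z, ⟨fun i => ι (w i), ?_, ?_, ?_, ?_⟩, ?_, hrel, fun {_ _} hpair => hτ hpair⟩
  · intro h
    rcases hL.prim with h1 | h1
    · exact (h1.map ι).ne_zero (congrFun h 0)
    · exact (h1.map ι).ne_zero (congrFun h 1)
  · intro s hs
    obtain ⟨c, hc⟩ := hL.decomp s hs
    refine ⟨ι c, ?_⟩
    refine (map_mulVec' ι (r s) w).symm.trans ?_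
    rw [hc]
    funext i
    exact map_mul ι _ _
  · intro s hs u
    obtain ⟨c, hc⟩ := hlin s 1 (fun v => by rw [one_smul]; exact hL.inertia s hs v) u
    exact ⟨c, by rw [← hc, map_one, one_smul]⟩
  · intro Φ hΦ u
    exact hlin Φ z (hL.frob Φ hΦ) u
  · intro ψ hψ hψ0 b hb
    have h1 := hrel ψ hψ
    rw [hb, smul_smul, ← sub_eq_zero, ← sub_smul] at h1
    have h2 := (smul_eq_zero.1 h1).resolve_right hψ0
    linear_combination - h2

include hpO hι in
/-- the case `N ∣ m` -/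
theorem ordOldE (hpN : ¬ p ∣ N) (hp2 : p ≠ 2) {m : ℕ} (hm : m ≠ 0) (hNm : N ∣ m) (a : ℕ → E)
    {φ : parabolicHoms E (Gamma0 N) E} (hφ0 : φ ≠ 0) (hφ : φ ∈ VE E N m a)
    (r : GQ →* M2 O) (hr : MatCont O r)
    (ha : ∀ s : ℕ, s.Prime → ¬ s ∣ m → ∀ B : ValuationSubring Qb, B.LiesOverPrime s →
      ∀ τ : GQ, B.IsFrobeniusAt τ s → ι (r τ).trace = a s)
    (hspan : Submodule.span (ResidueField O) (Set.range (mapRep (residue O) r)) = ⊤)
    {A : ValuationSubring Qb} (hA : A.LiesOverPrime p) (hord : ResOrd A r) :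
    ∃ z : E, (∃ w : Fin 2 → E, w ≠ 0 ∧
      (∀ s ∈ A.decompositionSubgroup ℚ, ∃ c : E, mapRep ι r s *ᵥ w = c • w) ∧
      (∀ s ∈ A.inertiaSubgroupIn ℚ, ∀ u, ∃ c : E, mapRep ι r s *ᵥ u - u = c • w) ∧
      ∀ Φ, A.IsFrobeniusAt Φ p → ∀ u, ∃ c : E, mapRep ι r Φ *ᵥ u - z • u = c • w) ∧
      (∀ ψ ∈ VE E N m a, ψ ≠ 0 → ∀ b : E, parHecke E E hp.out hpN ψ = b • ψ →
        z ^ 2 - b * z + p = 0) ∧
      (∀ ψ ∈ VE E N m a, z • parHecke E E hp.out hpN ψ = (z ^ 2 + p) • ψ) ∧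
      ∀ {φ₀ τ : GQ}, ORD.Pair p A φ₀ τ → r τ = 1 :=
  ordOldE' hpO ι hι hpN hp2 hm (fun _ _ h => h.trans hNm) a hφ0 hφ r hr ha hspan hA hord

end DataE

end Fermat.Agent.OrdOld
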