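import Fermat.Agent.OrdOld.Basic

/-!
# The Hecke operator at `p` on the isotypic part of a lattice
-/

set_option autoImplicit false
set_option linter.unusedSectionVars false
set_option linter.style.haveILetI false

noncomputable section

open Module GaloisRep Fermat.Agent.HopfOrder IsLocalRing Matrix

namespace Fermat.Agent.OrdOld

open Fermat.Agent.DefRing (M2 MatCont mapRep mapRep_apply)
open Fermat.Agent.FlatT

local notation "Qb" => AlgebraicClosure ℚ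

variable {p : ℕ} [hp : Fact p.Prime] {A : ValuationSubring Qb}
variable {𝒪 : Type} [CommRing 𝒪] [IsDomain 𝒪] [IsDiscreteValuationRing 𝒪]

/-- the row vector of `ell w` -/
def rowOf (w : Fin 2 → 𝒪) : Fin 2 → 𝒪 := ![- w 1, w 0]

theorem rowOf_dot (w v : Fin 2 → 𝒪) : rowOf w ⬝ᵥ v = ell w v := by
  simp only [rowOf, ell, dotProduct, Fin.sum_univ_two]
  simp
  ring

theorem vecMul_eq_of {M : M2 𝒪} {a b : Fin 2 → 𝒪} (h : ∀ v, a ⬝ᵥ (M *ᵥ v) = b ⬝ᵥ v) :
    a ᵥ* M = b := by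
  funext i
  have h1 := h (Pi.single i 1)
  rw [dotProduct_mulVec, dotProduct_single_one, dotProduct_single_one] at h1
  exact h1

theorem OrdLine.row_inertia {r : GQ →* M2 𝒪} {w : Fin 2 → 𝒪} {z : 𝒪} (hL : OrdLine p A r w z)
    {s : GQ} (hs : s ∈ A.inertiaSubgroupIn ℚ) : rowOf w ᵥ* r s = rowOf w := by
  refine vecMul_eq_of fun v => ?_
  obtain ⟨c, hc⟩ := hL.inertia s hs v
  have h1 : r s *ᵥ v = v + c • w := by rw [← hc]; abel
  rw [h1, rowOf_dot, rowOf_dot, ell_add, ell_smul_self, add_zero]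

theorem OrdLine.row_frob {r : GQ →* M2 𝒪} {w : Fin 2 → 𝒪} {z : 𝒪} (hL : OrdLine p A r w z)
    {Φ : GQ} (hΦ : A.IsFrobeniusAt Φ p) : rowOf w ᵥ* r Φ = z • rowOf w := by
  refine vecMul_eq_of fun v => ?_
  obtain ⟨c, hc⟩ := hL.frob Φ hΦ v
  have h1 : r Φ *ᵥ v = z • v + c • w := by rw [← hc]; abel
  rw [h1, rowOf_dot, smul_dotProduct, rowOf_dot, ell_add, ell_smul_self, add_zero, ell_smul,
    smul_eq_mul]

theorem vecMulVec_mul' (u a : Fin 2 → 𝒪) (M : M2 𝒪) :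
    vecMulVec u a * M = vecMulVec u (a ᵥ* M) := by
  ext i j
  simp only [mul_apply, vecMulVec_apply, vecMul, dotProduct, Fin.sum_univ_two]
  ring

theorem vecMulVec_smul' (u a : Fin 2 → 𝒪) (c : 𝒪) :
    vecMulVec u (c • a) = c • vecMulVec u a := by
  ext i j
  simp only [vecMulVec_apply, Pi.smul_apply, smul_eq_mul, Matrix.smul_apply]
  ring

variable {X : Type} [AddCommGroup X] [Module 𝒪 X] (P : GQ →* Module.End 𝒪 X)
  (Q : Module.End 𝒪 X)

/-- **The relation for the Hecke operator at `p`.** -/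
theorem hecke_rel (hEX : AugExact p A) {Φ : GQ} (hPQ : ∀ σ, P σ * Q = Q * P σ)
    (hX : ∀ x : X, (∀ m : ℕ, ∃ y, x = (p : 𝒪) ^ m • y) → x = 0)
    (hlev : ∀ m : ℕ, ∃ (M : Type) (_ : AddCommGroup M) (_ : Finite M)
      (_ : DistribMulAction GQ M) (n : ℕ) (f : X →+ M), IsFlatMod p M ∧
      (∀ x : M, p ^ n • x = 0) ∧ (∀ σ x, f (P σ x) = σ • f x) ∧
      (∀ x, f x = 0 → ∃ y, x = (p : 𝒪) ^ m • y) ∧
      ∀ x, f (P Φ (P Φ x) - Q (P Φ x) + (p : 𝒪) • x) ∈ Aug A M)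
    (Y : Submodule 𝒪 X) (hYP : ∀ σ, ∀ y ∈ Y, P σ y ∈ Y) (hYQ : ∀ y ∈ Y, Q y ∈ Y)
    (hsat : ∀ (m : ℕ) (x : X), (p : 𝒪) ^ m • x ∈ Y → x ∈ Y)
    (r : GQ →* M2 𝒪) (hspan : Submodule.span 𝒪 (Set.range r) = ⊤)
    (Ψ : M2 𝒪 →ₐ[𝒪] Module.End 𝒪 Y) (hΨ : ∀ σ (y : Y), (Ψ (r σ) y : X) = P σ y)
    {w : Fin 2 → 𝒪} {z : 𝒪} (hL : OrdLine p A r w z) (hΦ : A.IsFrobeniusAt Φ p) {y : X}
    (hy : y ∈ Y) : (z ^ 2) • y - z • Q y + (p : 𝒪) • y = 0 := by
  classical
  let QY : Module.End 𝒪 Y := Q.restrict hYQ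
  have hQY : ∀ y : Y, (QY y : X) = Q y := fun y => rfl
  have hcomm : ∀ (M : M2 𝒪) (y : Y), QY (Ψ M y) = Ψ M (QY y) := by
    intro M y
    have hM : M ∈ Submodule.span 𝒪 (Set.range r) := by rw [hspan]; trivial
    induction hM using Submodule.span_induction with
    | mem M hM =>
      obtain ⟨σ, rfl⟩ := hM
      apply Subtype.ext
      rw [hQY, hΨ, hΨ, hQY]
      have := congrArg (fun g : Module.End 𝒪 X => g (y : X)) (hPQ σ)
      exact this.symm
    | zero => rw [map_zero, LinearMap.zero_apply, LinearMap.zero_apply, map_zero]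
    | add M M' _ _ h h' =>
      rw [map_add, LinearMap.add_apply, LinearMap.add_apply, map_add, h, h']
    | smul c M _ h =>
      rw [map_smul, LinearMap.smul_apply, LinearMap.smul_apply, map_smul, h]
  -- the operators killing the augmentation part
  have hkill : ∀ (u : Fin 2 → 𝒪), ∀ y' ∈ AddSubgroup.closure
      {w : X | ∃ s ∈ A.inertiaSubgroupIn ℚ, ∃ v ∈ Y.toAddSubgroup, w = P s v - v},
      ∃ h : y' ∈ Y, Ψ (vecMulVec u (rowOf w)) ⟨y', h⟩ = 0 := by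
    intro u y' hy'
    induction hy' using AddSubgroup.closure_induction with
    | mem x hx =>
      obtain ⟨s, hs, v, hv, rfl⟩ := hx
      have hv' : v ∈ Y := hv
      refine ⟨Y.sub_mem (hYP s v hv') hv', ?_⟩
      have h1 : (⟨P s v - v, Y.sub_mem (hYP s v hv') hv'⟩ : Y) =
          Ψ (r s) ⟨v, hv'⟩ - ⟨v, hv'⟩ := by
        apply Subtype.ext
        rw [AddSubgroupClass.coe_sub, hΨ]
      rw [h1, map_sub, ← Module.End.mul_apply, ← map_mul, vecMulVec_mul', hL.row_inertia hs,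
        sub_self]
    | zero => exact ⟨Y.zero_mem, map_zero _⟩
    | add x y _ _ hx hy =>
      obtain ⟨hx, hx'⟩ := hx
      obtain ⟨hy, hy'⟩ := hy
      refine ⟨Y.add_mem hx hy, ?_⟩
      have h1 : (⟨x + y, Y.add_mem hx hy⟩ : Y) = ⟨x, hx⟩ + ⟨y, hy⟩ := rfl
      rw [h1, map_add, hx', hy', add_zero]
    | neg x _ hx =>
      obtain ⟨hx, hx'⟩ := hx
      refine ⟨Y.neg_mem hx, ?_⟩
      have h1 : (⟨-x, Y.neg_mem hx⟩ : Y) = -⟨x, hx⟩ := rfl
      rw [h1, map_neg, hx', neg_zero]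
  let R : Module.End 𝒪 Y := (z ^ 2) • 1 - z • QY + (p : 𝒪) • 1
  have hR : ∀ y : Y, R y = (z ^ 2) • y - z • QY y + (p : 𝒪) • y := fun y => rfl
  have hRcomm : ∀ (M : M2 𝒪) (y : Y), R (Ψ M y) = Ψ M (R y) := by
    intro M y
    rw [hR, hR, hcomm, map_add, map_sub, map_smul, map_smul, map_smul]
  have key : ∀ (u : Fin 2 → 𝒪) (y : Y), Ψ (vecMulVec u (rowOf w)) (R y) = 0 := by
    intro u y
    set T := Ψ (vecMulVec u (rowOf w)) with hT
    -- the relation element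
    let x : Y := Ψ (r Φ) (Ψ (r Φ) y) - QY (Ψ (r Φ) y) + (p : 𝒪) • y
    have hx : (x : X) = P Φ (P Φ y) - Q (P Φ y) + (p : 𝒪) • (y : X) := by
      change ((Ψ (r Φ) (Ψ (r Φ) y) : Y) : X) - (QY (Ψ (r Φ) y) : X) + (p : 𝒪) • (y : X) = _
      rw [hΨ, hΨ, hQY, hΨ]
    have hTΦ : ∀ y : Y, T (Ψ (r Φ) y) = z • T y := by
      intro y
      rw [hT, ← Module.End.mul_apply, ← map_mul, vecMulVec_mul', hL.row_frob hΦ, vecMulVec_smul',
        map_smul, LinearMap.smul_apply]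
    have hTx : T x = T (R y) := by
      have h1 : ∀ y : Y, T (QY y) = QY (T y) := fun y => (hcomm _ y).symm
      rw [hR]
      simp only [x, map_add, map_sub, map_smul, hTΦ, h1, smul_smul, pow_two]
    rw [← hTx]
    apply Subtype.ext
    rw [ZeroMemClass.coe_zero]
    refine hX _ fun m => ?_
    obtain ⟨M, i1, i2, i3, n, f, hM, hn, hf, hker, haug⟩ := hlev m
    obtain ⟨y', hy', hfy'⟩ := hEX.pull hM hn (fun σ v => P σ v) f hf Y.toAddSubgroup
      (fun s _ x hx => hYP s x hx) (y := (x : X)) x.2 (by rw [hx]; exact haug _)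
    obtain ⟨x', hx'⟩ := hker _ hfy'
    obtain ⟨hyY, hTy'⟩ := hkill u y' hy'
    have hx'Y : x' ∈ Y := hsat m x' (by rw [← hx']; exact Y.sub_mem x.2 hyY)
    refine ⟨(T ⟨x', hx'Y⟩ : Y), ?_⟩
    have h2 : x = ⟨y', hyY⟩ + (p : 𝒪) ^ m • ⟨x', hx'Y⟩ := by
      apply Subtype.ext
      change (x : X) = y' + (p : 𝒪) ^ m • x'
      rw [← hx']
      abel
    rw [h2, map_add, hTy', zero_add, map_smul]
    rfl
  -- conclusion
  obtain ⟨v₀, hv₀⟩ := exists_dual hL.prim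
  have hone : (1 : M2 𝒪) = vecMulVec (Pi.single 0 1) (rowOf w) * vecMulVec v₀ (Pi.single 0 1) +
      vecMulVec (Pi.single 1 1) (rowOf w) * vecMulVec v₀ (Pi.single 1 1) := by
    have h1 : rowOf w ⬝ᵥ v₀ = 1 := by rw [rowOf_dot, hv₀]
    have h2 : ∀ a b : Fin 2 → 𝒪, vecMulVec a (rowOf w) * vecMulVec v₀ b = vecMulVec a b := by
      intro a b
      ext i j
      rw [dotProduct, Fin.sum_univ_two] at h1
      simp only [mul_apply, vecMulVec_apply, Fin.sum_univ_two]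
      linear_combination (a i * b j) * h1
    rw [h2, h2]
    ext i j
    fin_cases i <;> fin_cases j <;> simp [vecMulVec_apply]
  have hfin : R ⟨y, hy⟩ = 0 := by
    have h1 : R ⟨y, hy⟩ = Ψ 1 (R ⟨y, hy⟩) := by rw [map_one, Module.End.one_apply]
    rw [h1, hone, map_add, LinearMap.add_apply, map_mul, map_mul, Module.End.mul_apply,
      Module.End.mul_apply, ← hRcomm (vecMulVec v₀ (Pi.single 0 1)),
      ← hRcomm (vecMulVec v₀ (Pi.single 1 1)), key, key, add_zero]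
  exact congrArg Subtype.val hfin

end Fermat.Agent.OrdOld
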