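import Fermat.Agent.OrdOld.Lattice
import Fermat.Agent.OrdF.Main
import Fermat.Agent.OrdO.ESAug
import Fermat.Agent.FlatT.HeckeRep
import Fermat.Agent.LocEll.Final

/-!
# The finite levels of `𝒪 ⊗ T_p J₀(N)` and the Eichler–Shimura relation at `p`
-/

set_option autoImplicit false
set_option linter.unusedSectionVars false
set_option linter.style.haveILetI false

noncomputable section

open Module GaloisRep Fermat.Agent.HopfOrder IsLocalRing Matrix ModularCurve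
open scoped TensorProduct

namespace Fermat.Agent.OrdOld

open Fermat.Agent.DefRing (M2 MatCont mapRep mapRep_apply)
open Fermat.Agent.FlatT Fermat.Agent.HGModule Fermat.Agent.QuadRep Fermat.Agent.LocEll
  Fermat.Agent.Tate

local notation "Qb" => AlgebraicClosure ℚ

section General

variable {k B : Type} [Fintype k] [DecidableEq k] [CommRing B]

/-- The linear action of a matrix representation. -/
def kHom (r : GQ →* Matrix k k B) : GQ →* Module.End B (k → B) :=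
  ((Matrix.toLinAlgEquiv' : Matrix k k B ≃ₐ[B] ((k → B) →ₗ[B] (k → B))) :
    Matrix k k B →* ((k → B) →ₗ[B] (k → B))).comp r

theorem kHom_apply (r : GQ →* Matrix k k B) (σ : GQ) (v : k → B) : kHom r σ v = r σ *ᵥ v := rfl

/-- The action of a matrix representation. -/
@[reducible] def kAct (r : GQ →* Matrix k k B) : DistribMulAction GQ (k → B) := actOf (kHom r)

end General

section Concrete

variable {p : ℕ} [hp : Fact p.Prime] {N : ℕ} [NeZero N] {S : Set ℕ}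
variable {𝒪 : Type} [CommRing 𝒪] [IsDomain 𝒪] [IsDiscreteValuationRing 𝒪]
  [IsAdicComplete (maximalIdeal 𝒪) 𝒪] [CharZero 𝒪]

section D

variable (D : HeckeGaloisModule p N S) (hp𝒪 : (p : 𝒪) ∈ maximalIdeal 𝒪)

/-- coordinates -/
def cX : Lam D →+ (Fin (rk D) → 𝒪) :=
  AddMonoidHom.mk' (fun x i => padicHom p 𝒪 hp𝒪 ((basp D).repr x i)) fun x y => by
    funext i
    rw [map_add, Finsupp.add_apply, map_add]
    rfl

theorem cX_apply (x : Lam D) (i : Fin (rk D)) :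
    cX D hp𝒪 x i = padicHom p 𝒪 hp𝒪 ((basp D).repr x i) := rfl

/-- matrices of Galois elements over `𝒪` -/
def PM : GQ →* Matrix (Fin (rk D)) (Fin (rk D)) 𝒪 :=
  ((padicHom p 𝒪 hp𝒪).mapMatrix : Matrix (Fin (rk D)) (Fin (rk D)) ℤ_[p] →+*
    Matrix (Fin (rk D)) (Fin (rk D)) 𝒪).toMonoidHom.comp (P D)

theorem PM_apply (σ : GQ) : PM D hp𝒪 σ = (P D σ).map (padicHom p 𝒪 hp𝒪) := rfl

variable (𝒪) in
/-- matrices of Hecke operators over `𝒪` -/
def QM (t : CuspForm.heckeAlgebra N 2 S) : Matrix (Fin (rk D)) (Fin (rk D)) 𝒪 :=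
  (Q D t).map (Int.castRingHom 𝒪)

theorem cX_rho (σ : GQ) (x : Lam D) : cX D hp𝒪 (D.ρ σ x) = PM D hp𝒪 σ *ᵥ cX D hp𝒪 x := by
  have h1 : P D σ *ᵥ ((basp D).repr x : Fin (rk D) → ℤ_[p]) = (basp D).repr (D.ρ σ x) :=
    LinearMap.toMatrix_mulVec_repr (basp D) (basp D) (D.ρ σ) x
  have h2 := map_mulVec' (padicHom p 𝒪 hp𝒪) (P D σ) ((basp D).repr x : Fin (rk D) → ℤ_[p])
  rw [h1] at h2
  exact h2

theorem cX_theta (t : CuspForm.heckeAlgebra N 2 S) (x : Lam D) :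
    cX D hp𝒪 ((D.θ t).baseChange ℤ_[p] x) = QM 𝒪 D t *ᵥ cX D hp𝒪 x := by
  have h1 : (Q D t).map (algebraMap ℤ ℤ_[p]) *ᵥ ((basp D).repr x : Fin (rk D) → ℤ_[p]) =
      (basp D).repr ((D.θ t).baseChange ℤ_[p] x) := by
    rw [← toMatrix_baseChange_θ]
    exact LinearMap.toMatrix_mulVec_repr (basp D) (basp D) _ x
  have h2 := map_mulVec' (padicHom p 𝒪 hp𝒪) ((Q D t).map (algebraMap ℤ ℤ_[p]))
    ((basp D).repr x : Fin (rk D) → ℤ_[p])
  rw [h1] at h2
  have h3 : ((Q D t).map (algebraMap ℤ ℤ_[p])).map (padicHom p 𝒪 hp𝒪) = QM 𝒪 D t := by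
    ext i j
    simp [QM]
  rw [h3] at h2
  exact h2

theorem cX_smul (a : ℤ_[p]) (x : Lam D) :
    cX D hp𝒪 (a • x) = padicHom p 𝒪 hp𝒪 a • cX D hp𝒪 x := by
  funext i
  rw [cX_apply, map_smul, Finsupp.smul_apply, smul_eq_mul, map_mul]
  rfl

theorem cX_basp (j : Fin (rk D)) : cX D hp𝒪 (basp D j) = Pi.single j 1 := by
  funext i
  rw [cX_apply, Module.Basis.repr_self, Finsupp.single_apply, Pi.single_apply]
  by_cases h : j = i
  · rw [if_pos h, if_pos h.symm, map_one]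
  · rw [if_neg h, if_neg (fun h' => h h'.symm), map_zero]

variable (p 𝒪) in
/-- the ideal `(p ^ m)` -/
abbrev Ip (m : ℕ) : Ideal 𝒪 := Ideal.span {(p : 𝒪) ^ m}

/-- the reduced action -/
def PR (m : ℕ) : GQ →* Matrix (Fin (rk D)) (Fin (rk D)) (𝒪 ⧸ Ip p 𝒪 m) :=
  ((Ideal.Quotient.mk (Ip p 𝒪 m)).mapMatrix : Matrix (Fin (rk D)) (Fin (rk D)) 𝒪 →+*
    Matrix (Fin (rk D)) (Fin (rk D)) (𝒪 ⧸ Ip p 𝒪 m)).toMonoidHom.comp (PM D hp𝒪)

variable (p) in
/-- the reduction -/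
def redX (k : Type) (m : ℕ) : (k → 𝒪) →+ (k → 𝒪 ⧸ Ip p 𝒪 m) :=
  AddMonoidHom.mk' (fun v i => Ideal.Quotient.mk _ (v i)) fun v w => by
    funext i
    exact map_add (Ideal.Quotient.mk (Ip p 𝒪 m)) _ _

theorem redX_apply {k : Type} (m : ℕ) (v : k → 𝒪) (i : k) :
    redX p k m v i = Ideal.Quotient.mk _ (v i) := rfl

theorem redX_smul {k : Type} (m : ℕ) (a : 𝒪) (v : k → 𝒪) :
    redX p k m (a • v) = Ideal.Quotient.mk (Ip p 𝒪 m) a • redX p k m v := by
  funext i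
  rw [redX_apply, Pi.smul_apply, smul_eq_mul, map_mul]
  rfl

theorem redX_eq_zero {k : Type} [Finite k] {m : ℕ} {v : k → 𝒪} (h : redX p k m v = 0) :
    ∃ y : k → 𝒪, v = (p : 𝒪) ^ m • y := by
  have h1 : ∀ i, ∃ c, v i = (p : 𝒪) ^ m * c := fun i => by
    have h2 := congrFun h i
    rw [redX_apply, Pi.zero_apply, Ideal.Quotient.eq_zero_iff_mem,
      Ideal.mem_span_singleton] at h2
    exact h2
  choose y hy using h1
  exact ⟨y, funext hy⟩

theorem redX_PM (m : ℕ) (σ : GQ) (v : Fin (rk D) → 𝒪) :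
    redX p _ m (PM D hp𝒪 σ *ᵥ v) = PR D hp𝒪 m σ *ᵥ redX p _ m v :=
  map_mulVec' (Ideal.Quotient.mk (Ip p 𝒪 m)) (PM D hp𝒪 σ) v

/-- the map from the levels -/
def gX (m : ℕ) : Lev D m →+ (Fin (rk D) → 𝒪 ⧸ Ip p 𝒪 m) :=
  QuotientAddGroup.lift (lamSub D m).toAddSubgroup ((redX p _ m).comp (cX D hp𝒪)) (by
    rintro _ ⟨y, rfl⟩
    rw [AddMonoidHom.mem_ker]
    change redX p _ m (cX D hp𝒪 ((p : ℤ_[p]) ^ m • y)) = 0
    rw [cX_smul, map_pow, map_natCast, redX_smul]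
    have h1 : Ideal.Quotient.mk (Ip p 𝒪 m) ((p : 𝒪) ^ m) = 0 :=
      Ideal.Quotient.eq_zero_iff_mem.2 (Ideal.mem_span_singleton_self _)
    rw [h1, zero_smul])

theorem gX_mkL (m : ℕ) (x : Lam D) : gX D hp𝒪 m (mkL D m x) = redX p _ m (cX D hp𝒪 x) := rfl

theorem gX_gLev (m : ℕ) (σ : GQ) (y : Lev D m) :
    gX D hp𝒪 m (gLev D m σ y) = PR D hp𝒪 m σ *ᵥ gX D hp𝒪 m y := by
  obtain ⟨x, rfl⟩ := mkL_surjective D m y
  rw [gLev_mkL, gX_mkL, gX_mkL, cX_rho, redX_PM]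

theorem finite_quot [Finite (ResidueField 𝒪)] (m : ℕ) : Finite (𝒪 ⧸ Ip p 𝒪 m) := by
  have h0 : Finite (𝒪 ⧸ maximalIdeal 𝒪) := ‹Finite (ResidueField 𝒪)›
  rcases eq_or_ne ((p : 𝒪) ^ m) 0 with h | h
  · exact absurd h (pow_ne_zero _ (Nat.cast_ne_zero.2 hp.out.ne_zero))
  · obtain ⟨ϖ, hϖ⟩ := IsDiscreteValuationRing.exists_irreducible 𝒪
    obtain ⟨j, u, hu⟩ := IsDiscreteValuationRing.eq_unit_mul_pow_irreducible h hϖ
    have h1 : Ip p 𝒪 m = maximalIdeal 𝒪 ^ j := by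
      rw [hϖ.maximalIdeal_eq, Ideal.span_singleton_pow, Ip, hu]
      exact Ideal.span_singleton_mul_left_unit u.isUnit _
    rw [h1]
    exact Ideal.finite_quotient_pow (IsNoetherian.noetherian _) _

/-- the levels with coefficients are flat -/
theorem isFlatMod_X [Finite (ResidueField 𝒪)] (m : ℕ) (hfin : Finite (Lev D m))
    (hflat : @IsFlatMod p (Lev D m) _ (actOf (gLev D m))) :
    @IsFlatMod p (Fin (rk D) → 𝒪 ⧸ Ip p 𝒪 m) _ (kAct (PR D hp𝒪 m)) := by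
  classical
  have hfq := finite_quot (p := p) (𝒪 := 𝒪) m
  have := Fintype.ofFinite (𝒪 ⧸ Ip p 𝒪 m)
  letI := actOf (gLev D m)
  letI := kAct (PR D hp𝒪 m)
  have h1 : IsFlatMod p ((𝒪 ⧸ Ip p 𝒪 m) → Lev D m) := IsFlatMod.pi fun _ => hflat
  let F : ((𝒪 ⧸ Ip p 𝒪 m) → Lev D m) →+ (Fin (rk D) → 𝒪 ⧸ Ip p 𝒪 m) :=
    AddMonoidHom.mk' (fun y => ∑ b, b • gX D hp𝒪 m (y b)) fun y y' => by
      simp only [Pi.add_apply, map_add, smul_add, Finset.sum_add_distrib]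
  have hF : ∀ y, F y = ∑ b, b • gX D hp𝒪 m (y b) := fun y => rfl
  have hFs : ∀ b (y : Lev D m), F (Pi.single b y) = b • gX D hp𝒪 m y := by
    intro b y
    rw [hF, Finset.sum_eq_single b]
    · rw [Pi.single_eq_same]
    · intro b' _ hb'
      rw [Pi.single_eq_of_ne hb', map_zero, smul_zero]
    · intro h
      exact absurd (Finset.mem_univ b) h
  refine h1.of_surjective F ?_ ?_
  · intro x
    refine ⟨∑ j, Pi.single (x j) (mkL D m (basp D j)), ?_⟩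
    rw [map_sum]
    have h2 : ∀ j, F (Pi.single (x j) (mkL D m (basp D j))) = Pi.single j (x j) := by
      intro j
      rw [hFs, gX_mkL, cX_basp]
      funext i
      rw [Pi.smul_apply, redX_apply, smul_eq_mul]
      by_cases h : i = j
      · subst h
        rw [Pi.single_eq_same, Pi.single_eq_same, map_one, mul_one]
      · rw [Pi.single_eq_of_ne h, Pi.single_eq_of_ne h, map_zero, mul_zero]
    rw [Finset.sum_congr rfl fun j _ => h2 j]
    exact Finset.univ_sum_single x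
  · intro σ y
    rw [hF, hF]
    change ∑ b, b • gX D hp𝒪 m (gLev D m σ (y b)) =
      PR D hp𝒪 m σ *ᵥ ∑ b, b • gX D hp𝒪 m (y b)
    rw [Matrix.mulVec_sum]
    refine Finset.sum_congr rfl fun b _ => ?_
    rw [gX_gLev, Matrix.mulVec_smul]

theorem smul_mem_Aug {k : Type} [Fintype k] [DecidableEq k] {B : Type} [CommRing B]
    {A : ValuationSubring Qb} (r : GQ →* Matrix k k B) (b : B) {x : k → B}
    (hx : x ∈ @Aug A (k → B) _ (kAct r)) : b • x ∈ @Aug A (k → B) _ (kAct r) := by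
  letI := kAct r
  unfold Aug at hx ⊢
  induction hx using AddSubgroup.closure_induction with
  | mem x hx =>
    obtain ⟨s, hs, y, rfl⟩ := hx
    refine AddSubgroup.subset_closure ⟨s, hs, b • y, ?_⟩
    change b • (r s *ᵥ y - y) = r s *ᵥ (b • y) - b • y
    rw [smul_sub, mulVec_smul]
  | zero => rw [smul_zero]; exact AddSubgroup.zero_mem _
  | add x y _ _ hx hy => rw [smul_add]; exact AddSubgroup.add_mem _ hx hy
  | neg x _ hx => rw [smul_neg]; exact AddSubgroup.neg_mem _ hx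

/-- the Eichler–Shimura relation in the levels with coefficients -/
theorem aug_X {A : ValuationSubring Qb} {Φ : GQ} (m : ℕ) (t : CuspForm.heckeAlgebra N 2 S)
    (hlev : ∀ x : Lam D, mkL D m (D.ρ Φ (D.ρ Φ x) - (D.θ t).baseChange ℤ_[p] (D.ρ Φ x) +
      (p : ℤ_[p]) • x) ∈ @Aug A (Lev D m) _ (actOf (gLev D m))) (x : Fin (rk D) → 𝒪) :
    redX p _ m (PM D hp𝒪 Φ *ᵥ (PM D hp𝒪 Φ *ᵥ x) - QM 𝒪 D t *ᵥ (PM D hp𝒪 Φ *ᵥ x) +
      (p : 𝒪) • x) ∈ @Aug A (Fin (rk D) → 𝒪 ⧸ Ip p 𝒪 m) _ (kAct (PR D hp𝒪 m)) := by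
  classical
  let RX : (Fin (rk D) → 𝒪) →ₗ[𝒪] (Fin (rk D) → 𝒪) :=
    (PM D hp𝒪 Φ).mulVecLin ∘ₗ (PM D hp𝒪 Φ).mulVecLin -
      (QM 𝒪 D t).mulVecLin ∘ₗ (PM D hp𝒪 Φ).mulVecLin + (p : 𝒪) • LinearMap.id
  have hRX : ∀ x, RX x = PM D hp𝒪 Φ *ᵥ (PM D hp𝒪 Φ *ᵥ x) -
      QM 𝒪 D t *ᵥ (PM D hp𝒪 Φ *ᵥ x) + (p : 𝒪) • x := fun x => rfl
  rw [← hRX]
  have hbas : ∀ j, redX p _ m (RX (Pi.single j 1)) ∈
      @Aug A (Fin (rk D) → 𝒪 ⧸ Ip p 𝒪 m) _ (kAct (PR D hp𝒪 m)) := by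
    intro j
    have h1 : RX (Pi.single j 1) = cX D hp𝒪 (D.ρ Φ (D.ρ Φ (basp D j)) -
        (D.θ t).baseChange ℤ_[p] (D.ρ Φ (basp D j)) + (p : ℤ_[p]) • basp D j) := by
      rw [map_add, map_sub, cX_rho, cX_rho, cX_theta, cX_rho, cX_smul, map_natCast, cX_basp, hRX]
    rw [h1, ← gX_mkL]
    have h2 := hlev (basp D j)
    revert h2
    generalize mkL D m (D.ρ Φ (D.ρ Φ (basp D j)) -
        (D.θ t).baseChange ℤ_[p] (D.ρ Φ (basp D j)) + (p : ℤ_[p]) • basp D j) = y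
    intro h2
    letI := actOf (gLev D m)
    letI := kAct (PR D hp𝒪 m)
    unfold Aug at h2 ⊢
    induction h2 using AddSubgroup.closure_induction with
    | mem x hx =>
      obtain ⟨s, hs, y, rfl⟩ := hx
      refine AddSubgroup.subset_closure ⟨s, hs, gX D hp𝒪 m y, ?_⟩
      rw [map_sub]
      congr 1
      exact gX_gLev D hp𝒪 m s y
    | zero => rw [map_zero]; exact AddSubgroup.zero_mem _
    | add x y _ _ hx hy => rw [map_add]; exact AddSubgroup.add_mem _ hx hy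
    | neg x _ hx => rw [map_neg]; exact AddSubgroup.neg_mem _ hx
  have h3 : x = ∑ j, x j • (Pi.single j 1 : Fin (rk D) → 𝒪) := by
    conv_lhs => rw [← Finset.univ_sum_single x]
    refine Finset.sum_congr rfl fun j _ => ?_
    rw [← Pi.single_smul, smul_eq_mul, mul_one]
  rw [h3, map_sum, map_sum]
  refine AddSubgroup.sum_mem _ fun j _ => ?_
  rw [map_smul, redX_smul]
  exact smul_mem_Aug _ _ (hbas j)

end D

section J

/-- the Eichler–Shimura relation at `p` in the levels, general form -/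
theorem aug_lev_gen {A : ValuationSubring Qb} (hEX : AugExact p A) {Φ : GQ}
    (I : TateInput p N S) (hpN : ¬ p ∣ N) (hpS : p ∉ S) (m : ℕ)
    (hfin : Finite (Submodule.torsionBy ℤ I.J ((p ^ m : ℕ) : ℤ)))
    (hflat : letI := FlatJ.torsionAction GQ I.J ((p ^ m : ℕ) : ℤ)
      IsFlatMod p (Submodule.torsionBy ℤ I.J ((p ^ m : ℕ) : ℤ)))
    (hES : ∀ x : I.J, p ^ m • x = 0 → Φ • Φ • x - I.T p hp.out hpN (Φ • x) + p • x ∈
      AddSubgroup.closure {w | ∃ s ∈ A.inertiaSubgroupIn ℚ, ∃ y : I.J, p ^ m • y = 0 ∧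
        w = s • y - y})
    (x : Lam I.toModule) :
    mkL I.toModule m (I.toModule.ρ Φ (I.toModule.ρ Φ x) -
      (I.toModule.θ (CuspForm.heckeAlgebra.T hp.out hpN hpS)).baseChange ℤ_[p]
        (I.toModule.ρ Φ x) + (p : ℤ_[p]) • x) ∈
      @Aug A (Lev I.toModule m) _ (actOf (gLev I.toModule m)) := by
  letI : DistribMulAction GQ (Submodule.torsionBy ℤ I.J ((p ^ m : ℕ) : ℤ)) :=
    FlatJ.torsionAction GQ I.J ((p ^ m : ℕ) : ℤ)
  letI := actOf (gLev I.toModule m)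
  have hn : ∀ x : Submodule.torsionBy ℤ I.J ((p ^ m : ℕ) : ℤ), p ^ m • x = 0 := by
    intro x
    apply Subtype.ext
    have h1 := (Submodule.mem_torsionBy_iff (R := ℤ) ((p ^ m : ℕ) : ℤ) (x : I.J)).1 x.2
    rw [natCast_zsmul] at h1
    exact h1
  -- the element in the torsion
  have haug : levEmb I m (mkL I.toModule m (I.toModule.ρ Φ (I.toModule.ρ Φ x) -
      (I.toModule.θ (CuspForm.heckeAlgebra.T hp.out hpN hpS)).baseChange ℤ_[p]
        (I.toModule.ρ Φ x) + (p : ℤ_[p]) • x)) ∈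
      Aug A (Submodule.torsionBy ℤ I.J ((p ^ m : ℕ) : ℤ)) := by
    have h1 := hES (I.comp m x) (comp_torsion I m x)
    have h2 : ((levEmb I m (mkL I.toModule m (I.toModule.ρ Φ (I.toModule.ρ Φ x) -
        (I.toModule.θ (CuspForm.heckeAlgebra.T hp.out hpN hpS)).baseChange ℤ_[p]
        (I.toModule.ρ Φ x) + (p : ℤ_[p]) • x)) :
        Submodule.torsionBy ℤ I.J ((p ^ m : ℕ) : ℤ)) : I.J) =
        Φ • Φ • I.comp m x - I.T p hp.out hpN (Φ • I.comp m x) + p • I.comp m x := by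
      rw [levEmb_mkL]
      have e1 : I.comp m (I.toModule.ρ Φ x) = Φ • I.comp m x := I.comp_rho Φ m x
      have e2 : I.comp m (I.toModule.ρ Φ (I.toModule.ρ Φ x)) = Φ • Φ • I.comp m x :=
        (I.comp_rho Φ m _).trans (congrArg (fun y => Φ • y) e1)
      have e3 : I.comp m ((I.toModule.θ (CuspForm.heckeAlgebra.T hp.out hpN hpS)).baseChange
          ℤ_[p] (I.toModule.ρ Φ x)) = I.T p hp.out hpN (Φ • I.comp m x) :=
        (Fermat.Agent.NewPoint.comp_theta I p hp.out hpN hpS m _).trans (congrArg _ e1)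
      have e4 : I.comp m ((p : ℤ_[p]) • x) = p • I.comp m x :=
        Fermat.Agent.NewPoint.comp_smul I m p x
      have hc : ∀ a b d : ℤ_[p] ⊗[ℤ] Period.parabolicHoms ℤ (CongruenceSubgroup.Gamma0 N) ℤ,
          I.comp m (a - b + d) = I.comp m a - I.comp m b + I.comp m d := fun a b d => by
        rw [map_add, map_sub]
      exact (hc _ _ _).trans (congrArg₂ (fun u v => u + v) (congrArg₂ (fun u v => u - v) e2 e3) e4)
    rw [← h2] at h1
    revert h1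
    generalize levEmb I m (mkL I.toModule m (I.toModule.ρ Φ (I.toModule.ρ Φ x) -
        (I.toModule.θ (CuspForm.heckeAlgebra.T hp.out hpN hpS)).baseChange ℤ_[p]
        (I.toModule.ρ Φ x) + (p : ℤ_[p]) • x)) = y
    intro h1
    have key : ∀ z : I.J, z ∈ AddSubgroup.closure {w : I.J |
        ∃ s ∈ A.inertiaSubgroupIn ℚ, ∃ y : I.J, p ^ m • y = 0 ∧ w = s • y - y} →
        ∃ y ∈ Aug A (Submodule.torsionBy ℤ I.J ((p ^ m : ℕ) : ℤ)), (y : I.J) = z := by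
      intro z hz
      induction hz using AddSubgroup.closure_induction with
      | mem z hz =>
        obtain ⟨s, hs, y, hy, rfl⟩ := hz
        let y' : Submodule.torsionBy ℤ I.J ((p ^ m : ℕ) : ℤ) :=
          ⟨y, by rw [Submodule.mem_torsionBy_iff, natCast_zsmul]; exact hy⟩
        exact ⟨s • y' - y', AddSubgroup.subset_closure ⟨s, hs, y', rfl⟩, rfl⟩
      | zero => exact ⟨0, AddSubgroup.zero_mem _, rfl⟩
      | add a b _ _ ha hb =>
        obtain ⟨a', ha', rfl⟩ := ha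
        obtain ⟨b', hb', rfl⟩ := hb
        exact ⟨a' + b', AddSubgroup.add_mem _ ha' hb', rfl⟩
      | neg a _ ha =>
        obtain ⟨a', ha', rfl⟩ := ha
        exact ⟨-a', AddSubgroup.neg_mem _ ha', rfl⟩
    obtain ⟨y', hy', hyy⟩ := key _ h1
    rwa [← Subtype.ext hyy]
  revert haug
  generalize mkL I.toModule m (I.toModule.ρ Φ (I.toModule.ρ Φ x) -
      (I.toModule.θ (CuspForm.heckeAlgebra.T hp.out hpN hpS)).baseChange ℤ_[p]
        (I.toModule.ρ Φ x) + (p : ℤ_[p]) • x) = y₀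
  intro haug
  obtain ⟨y', hy', h0⟩ := hEX.pull hflat hn (X := Lev I.toModule m)
    (fun σ x => gLev I.toModule m σ x) (levEmb I m) (fun σ y => by
      obtain ⟨x, rfl⟩ := mkL_surjective I.toModule m y
      exact Subtype.ext (I.comp_rho σ m x)) ⊤ (fun _ _ _ _ => trivial) (y := y₀)
    trivial haug
  have h1 := (injective_iff_map_eq_zero _).1 (levEmb_injective I m) _ h0
  rw [sub_eq_zero] at h1
  rw [h1]
  unfold Aug
  refine AddSubgroup.closure_mono ?_ hy'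
  rintro w ⟨s, hs, v, -, rfl⟩
  exact ⟨s, hs, v, rfl⟩

theorem augExact {A : ValuationSubring Qb} (hA : A.LiesOverPrime p) (hp2 : p ≠ 2) :
    AugExact p A := fun _ hM hn N' hN' z hz hz' => OrdF.augExact hA hp2 hM hn N' hN' z hz hz'

variable (N p) in
/-- the Eichler–Shimura relation at `p` in the levels -/
theorem aug_lev {A : ValuationSubring Qb} (hA : A.LiesOverPrime p) (hp2 : p ≠ 2)
    (hpN : ¬ p ∣ N) {Φ : GQ} (hΦ : A.IsFrobeniusAt Φ p)
    (hS : ∀ q : ℕ, q.Prime → q ∣ N → q ∈ S) (hpS : p ∉ S) (m : ℕ)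
    (x : Lam (jIn N p S hS).toModule) :
    mkL (jIn N p S hS).toModule m ((jIn N p S hS).toModule.ρ Φ ((jIn N p S hS).toModule.ρ Φ x) -
      ((jIn N p S hS).toModule.θ (CuspForm.heckeAlgebra.T hp.out hpN hpS)).baseChange ℤ_[p]
        ((jIn N p S hS).toModule.ρ Φ x) + (p : ℤ_[p]) • x) ∈
      @Aug A (Lev (jIn N p S hS).toModule m) _ (actOf (gLev (jIn N p S hS).toModule m)) :=
  have hfin := finite_jIn N p S hS m
  aug_lev_gen (augExact hA hp2) (jIn N p S hS) hpN hpS m hfin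
    (FlatJ.isFlatMod_JZero N p hpN (pow_pos hp.out.pos m))
    (fun x hx => OrdO.esAug N hA hp2 hpN hΦ m x hx) x

end J

end Concrete

end Fermat.Agent.OrdOld
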