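import Fermat.Agent.OrdOld.Final
import Fermat.Agent.RTan.Pts

/-!
# Ordinary lines of modular representations of level prime to `p`: relative form
-/

set_option autoImplicit false
set_option linter.unusedSectionVars false

noncomputable section

namespace Fermat.Agent.OrdOld

open IsLocalRing Matrix ModularCurve.Period CongruenceSubgroup
open Fermat.Agent.HopfOrder (GQ)
open Fermat.Agent.TWP (Pl)
open Fermat.Agent.DefRing (MatCont Red M2 mapRep mapRep_apply)
open Fermat.Agent.RTan (OrdAt OrdM Bas HasLine)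
open Fermat.Agent.LocEll Fermat.Agent.HeckeHom Fermat.Agent.FlatT

section Field

variable {𝒪 : Type} [CommRing 𝒪] {k : Type} [Field k] [Algebra 𝒪 k]

/-- from the matrix form to the line -/
theorem exists_line_of_ordM {A : ValuationSubring (AlgebraicClosure ℚ)} {σ₀ : GQ} {e : 𝒪}
    {ρ : GQ →* M2 k} (hσ₀ : σ₀ ∈ A.inertiaSubgroupIn ℚ) (h : OrdM A σ₀ e ρ)
    (hdet : (ρ σ₀).det = algebraMap 𝒪 k e) (he : algebraMap 𝒪 k e ≠ 1) :
    ∃ w : Fin 2 → k, w ≠ 0 ∧ ∀ s ∈ A.inertiaSubgroupIn ℚ, ∀ v, ∃ c : k,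
      ρ s *ᵥ v - v = c • w := by
  set M : M2 k := algebraMap 𝒪 k e • (1 : M2 k) - ρ σ₀ with hM
  have he0 : algebraMap 𝒪 k e ≠ 0 := by
    rw [← hdet]
    intro h0
    have h1 : (ρ σ₀ * ρ σ₀⁻¹).det = 1 := by rw [← map_mul, mul_inv_cancel, map_one, det_one]
    rw [det_mul, h0, zero_mul] at h1
    exact zero_ne_one h1
  have hM0 : M ≠ 0 := by
    intro h0
    rw [hM, sub_eq_zero] at h0
    rw [← h0] at hdet
    rw [det_smul, det_one, mul_one, Fintype.card_fin, pow_two] at hdet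
    exact he (mul_left_cancel₀ he0 (by rw [hdet, mul_one]))
  have hMd : M.det = 0 := by
    by_contra hne
    have h1 := h.quot σ₀ hσ₀
    have h2 : ρ σ₀ - 1 = 0 := by
      have h3 : M⁻¹ * M = 1 := Matrix.nonsing_inv_mul _ (isUnit_iff_ne_zero.2 hne)
      calc ρ σ₀ - 1 = (M⁻¹ * M) * (ρ σ₀ - 1) := by rw [h3, one_mul]
        _ = M⁻¹ * (M * (ρ σ₀ - 1)) := mul_assoc _ _ _
        _ = 0 := by rw [hM, h1, mul_zero]
    rw [sub_eq_zero] at h2
    rw [h2, det_one] at hdet
    exact he hdet.symm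
  obtain ⟨w, hw, hMw⟩ := Matrix.exists_mulVec_eq_zero_iff.2 hMd
  refine ⟨w, hw, fun s hs v => ?_⟩
  have h1 : M *ᵥ (ρ s *ᵥ v - v) = 0 := by
    have h2 := congrArg (fun X => X *ᵥ v) (h.quot s hs)
    simp only [zero_mulVec] at h2
    rw [← mulVec_mulVec, sub_mulVec (ρ s) 1 v, one_mulVec] at h2
    exact h2
  generalize ρ s *ᵥ v - v = u at h1
  have hell : w 0 * u 1 - w 1 * u 0 = 0 := by
    by_contra hne
    apply hM0
    have e : ∀ i, M i 0 * w 0 + M i 1 * w 1 = 0 := fun i => by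
      have := congrFun hMw i
      rw [mulVec, dotProduct, Fin.sum_univ_two] at this
      exact this
    have f : ∀ i, M i 0 * u 0 + M i 1 * u 1 = 0 := fun i => by
      have := congrFun h1 i
      rw [mulVec, dotProduct, Fin.sum_univ_two] at this
      exact this
    ext i j
    rw [Matrix.zero_apply]
    fin_cases j
    · have h2 : (w 0 * u 1 - w 1 * u 0) * M i 0 = 0 := by
        linear_combination u 1 * e i - w 1 * f i
      exact (mul_eq_zero.1 h2).resolve_left hne
    · have h2 : (w 0 * u 1 - w 1 * u 0) * M i 1 = 0 := by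
        linear_combination - u 0 * e i + w 0 * f i
      exact (mul_eq_zero.1 h2).resolve_left hne
  rcases eq_or_ne (w 0) 0 with h0 | h0
  · have h2 : w 1 ≠ 0 := fun h2 => hw (by
      funext i; fin_cases i
      · exact h0
      · exact h2)
    refine ⟨u 1 / w 1, ?_⟩
    rw [h0, zero_mul, zero_sub, neg_eq_zero] at hell
    funext i
    fin_cases i
    · change u 0 = u 1 / w 1 * w 0
      rw [h0, mul_zero]
      exact (mul_eq_zero.1 hell).resolve_left h2
    · change u 1 = u 1 / w 1 * w 1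
      rw [div_mul_cancel₀ _ h2]
  · refine ⟨u 0 / w 0, ?_⟩
    funext i
    fin_cases i
    · change u 0 = u 0 / w 0 * w 0
      rw [div_mul_cancel₀ _ h0]
    · change u 1 = u 0 / w 0 * w 1
      rw [div_mul_eq_mul_div, eq_div_iff h0]
      linear_combination hell

end Field

section Rel

variable {p : ℕ} [hp : Fact p.Prime] {𝒪 : Type} [CommRing 𝒪] [IsLocalRing 𝒪] {χ : GQ → 𝒪}
  {rbar : GQ →* M2 (ResidueField 𝒪)}
  {O : Type} [CommRing O] [IsDomain O] [IsDiscreteValuationRing O] [Algebra 𝒪 O]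
  [IsLocalHom (algebraMap 𝒪 O)]

/-- the residue map -/
def resA (𝒪 O : Type) [CommRing 𝒪] [IsLocalRing 𝒪] [CommRing O] [IsLocalRing O] [Algebra 𝒪 O]
    [IsLocalHom (algebraMap 𝒪 O)] : ResidueField 𝒪 →ₐ[𝒪] ResidueField O :=
  { ResidueField.map (algebraMap 𝒪 O) with
    commutes' := fun x => ResidueField.map_residue (algebraMap 𝒪 O) x }

theorem mapRep_residue {r : GQ →* M2 O} (hr : Red rbar r) :
    mapRep (residue O) r = mapRep ((resA 𝒪 O : ResidueField 𝒪 →ₐ[𝒪] ResidueField O) :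
      ResidueField 𝒪 →+* ResidueField O) rbar := by
  refine MonoidHom.ext fun σ => Matrix.ext fun i j => ?_
  rw [mapRep_apply, mapRep_apply]
  obtain ⟨o, ho⟩ := residue_surjective (rbar σ i j)
  have h1 := hr σ i j o ho
  rw [← residue_eq_zero_iff, map_sub, sub_eq_zero] at h1
  rw [h1, ← ho]
  exact (ResidueField.map_residue (algebraMap 𝒪 O) o).symm

/-- **Residual ordinarity.** -/
theorem resOrd_of_ordAt (b : Bas p χ rbar) (hdet : ∀ σ, (rbar σ).det = residue 𝒪 (χ σ))
    (h : OrdAt p χ rbar) {r : GQ →* M2 O} (hr : Red rbar r) :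
    ResOrd (Pl (ExtCitation.pPrime p)) r := by
  have h1 := (h b.σ₀ b.mem).map (resA 𝒪 O)
  rw [← mapRep_residue hr] at h1
  refine exists_line_of_ordM b.mem h1 ?_ ?_
  · rw [mapRep_residue hr]
    have h2 : (mapRep ((resA 𝒪 O : ResidueField 𝒪 →ₐ[𝒪] ResidueField O) :
      ResidueField 𝒪 →+* ResidueField O) rbar b.σ₀).det = resA 𝒪 O (rbar b.σ₀).det :=
      (RingHom.map_det _ _).symm
    rw [h2, hdet]
    exact (resA 𝒪 O).commutes (χ b.σ₀)
  · intro h2
    have h3 := congrArg (algebraMap 𝒪 (ResidueField O)) b.inv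
    rw [map_mul, map_sub, map_one, h2, sub_self, mul_zero] at h3
    exact zero_ne_one h3

/-- the residual span -/
theorem span_residue (hspan : Submodule.span (ResidueField 𝒪) (Set.range rbar) = ⊤)
    {r : GQ →* M2 O} (hr : Red rbar r) :
    Submodule.span (ResidueField O) (Set.range (mapRep (residue O) r)) = ⊤ := by
  have h0 : Submodule.span O (Set.range r) = ⊤ := span_top_of_red hspan hr
  rw [eq_top_iff]
  intro X _
  have h1 : ∀ Y ∈ Submodule.span O (Set.range r),
      (Y.map (residue O) : M2 (ResidueField O)) ∈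
        Submodule.span (ResidueField O) (Set.range (mapRep (residue O) r)) := by
    intro Y hY
    induction hY using Submodule.span_induction with
    | mem Y hY =>
      obtain ⟨σ, rfl⟩ := hY
      exact Submodule.subset_span ⟨σ, rfl⟩
    | zero =>
      rw [Matrix.map_zero _ (map_zero _)]
      exact Submodule.zero_mem _
    | add Y Z _ _ hY hZ =>
      rw [Matrix.map_add _ (map_add _)]
      exact Submodule.add_mem _ hY hZ
    | smul c Y _ hY =>
      have h2 : ((c • Y).map (residue O) : M2 (ResidueField O)) =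
          residue O c • (Y.map (residue O)) := by
        ext i j
        simp
      rw [h2]
      exact Submodule.smul_mem _ _ hY
  choose y hy using fun i j => residue_surjective (X i j)
  have h2 : X = (Matrix.of y).map (residue O) := by
    ext i j
    exact (hy i j).symm
  rw [h2]
  exact h1 _ (by rw [h0]; trivial)

end Rel

section Main

variable {p : ℕ} [hp : Fact p.Prime] {N : ℕ} [NeZero N]
  {𝒪 : Type} [CommRing 𝒪] [IsLocalRing 𝒪] {χ : GQ → 𝒪} {rbar : GQ →* M2 (ResidueField 𝒪)}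
  {O : Type} [CommRing O] [IsDomain O] [IsDiscreteValuationRing O]
  [IsAdicComplete (maximalIdeal O) O] [Finite (ResidueField O)] [CharZero O]
  [Algebra 𝒪 O] [IsLocalHom (algebraMap 𝒪 O)]
  (hpO : (p : O) ∈ maximalIdeal O)
  {E : Type} [Field E] [CharZero E] (ι : O →+* E) (hι : Function.Injective ι)

include hpO hι in
/-- **U2 and U3**, relative form. -/
theorem hasLine_old (b : Bas p χ rbar) (hdet : ∀ σ, (rbar σ).det = residue 𝒪 (χ σ))
    (hord : OrdAt p χ rbar) (hspan : Submodule.span (ResidueField 𝒪) (Set.range rbar) = ⊤)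
    (hpN : ¬ p ∣ N) (hp2 : p ≠ 2) {m : ℕ} (hm : m ≠ 0) (hNm : N ∣ m) (a : ℕ → E)
    {φ : parabolicHoms E (Gamma0 N) E} (hφ0 : φ ≠ 0) (hφ : φ ∈ VE E N m a)
    {r : GQ →* M2 O} (hr : MatCont O r) (hred : Red rbar r)
    (ha : ∀ s : ℕ, s.Prime → ¬ s ∣ m → ∀ B : ValuationSubring (AlgebraicClosure ℚ),
      B.LiesOverPrime s → ∀ τ : GQ, B.IsFrobeniusAt τ s → ι (r τ).trace = a s) :
    ∃ z : E, HasLine p (Pl (ExtCitation.pPrime p)) (mapRep ι r) z ∧
      (∀ ψ ∈ VE E N m a, ψ ≠ 0 → ∀ c : E, parHecke E E hp.out hpN ψ = c • ψ →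
        z ^ 2 - c * z + p = 0) ∧
      (∀ ψ ∈ VE E N m a, z • parHecke E E hp.out hpN ψ = (z ^ 2 + p) • ψ) ∧
      ∀ {φ₀ τ : GQ}, ORD.Pair p (Pl (ExtCitation.pPrime p)) φ₀ τ → r τ = 1 :=
  ordOldE hpO ι hι hpN hp2 hm hNm a hφ0 hφ r hr ha (span_residue hspan hred)
    (TWP.Pl_lies (ExtCitation.pPrime p)) (resOrd_of_ordAt b hdet hord hred)

include hpO hι in
/-- **[CASE]**: no level prime to `p` if `rbar` is not trivial at the Kummer element. -/
theorem eq_bot_of_tau (b : Bas p χ rbar) (hdet : ∀ σ, (rbar σ).det = residue 𝒪 (χ σ))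
    (hord : OrdAt p χ rbar) (hspan : Submodule.span (ResidueField 𝒪) (Set.range rbar) = ⊤)
    (hpN : ¬ p ∣ N) (hp2 : p ≠ 2) {m : ℕ} (hm : m ≠ 0) (hNm : N ∣ m) (a : ℕ → E)
    {r : GQ →* M2 O} (hr : MatCont O r) (hred : Red rbar r)
    (ha : ∀ s : ℕ, s.Prime → ¬ s ∣ m → ∀ B : ValuationSubring (AlgebraicClosure ℚ),
      B.LiesOverPrime s → ∀ τ : GQ, B.IsFrobeniusAt τ s → ι (r τ).trace = a s)
    {φ₀ τ : GQ} (hpair : ORD.Pair p (Pl (ExtCitation.pPrime p)) φ₀ τ) (hτ : rbar τ ≠ 1) :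
    VE E N m a = ⊥ := by
  by_contra hne
  obtain ⟨φ, hφ, hφ0⟩ := Submodule.exists_mem_ne_zero_of_ne_bot hne
  obtain ⟨z, -, -, -, h⟩ := hasLine_old hpO ι hι b hdet hord hspan hpN hp2 hm hNm a hφ0 hφ hr
    hred ha
  apply hτ
  have h1 : mapRep (residue O) r τ = mapRep ((resA 𝒪 O : ResidueField 𝒪 →ₐ[𝒪] ResidueField O) :
      ResidueField 𝒪 →+* ResidueField O) rbar τ := by rw [mapRep_residue hred]
  ext i j
  have h2 := congrFun (congrFun h1 i) j
  rw [mapRep_apply, mapRep_apply, h hpair] at h2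
  apply ((resA 𝒪 O : ResidueField 𝒪 →ₐ[𝒪] ResidueField O) :
      ResidueField 𝒪 →+* ResidueField O).injective
  rw [← h2, Matrix.one_apply, Matrix.one_apply]
  split_ifs
  · rw [map_one, map_one]
  · rw [map_zero, map_zero]

end Main

end Fermat.Agent.OrdOld
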