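import Fermat.Agent.OrdOld.Rep
import Fermat.Agent.ORD.Pair

/-!
# Modular Galois representations of level prime to `p`: the ordinary case

For a Galois representation attached to a Hecke eigensystem of level prime to `p` which is
residually ordinary at `p`: existence of the ordinary line, the action of `T_p`, and triviality of
the Kummer element at `p`.
-/

set_option autoImplicit false
set_option linter.unusedSectionVars false
set_option linter.style.haveILetI false

noncomputable section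

open Module GaloisRep Fermat.Agent.HopfOrder IsLocalRing Matrix ModularCurve
open ModularCurve.Period CongruenceSubgroup

namespace Fermat.Agent.OrdOld

open Fermat.Agent.DefRing (M2 MatCont mapRep mapRep_apply)
open Fermat.Agent.FlatT Fermat.Agent.HGModule Fermat.Agent.QuadRep Fermat.Agent.LocEll
  Fermat.Agent.Tate Fermat.Agent.HeckeHom

local notation "Qb" => AlgebraicClosure ℚ

section Descend

/-- descent of vectors keeping one linear form nonzero -/
theorem descend_ne {O E : Type*} [CommRing O] [IsDomain O] [Field E] (ι : O →+* E)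
    (hι : Function.Injective ι) {k : Type*} [Fintype k] (x : k → E) (c : k → O)
    (hc : ∑ i, ι (c i) * x i ≠ 0) :
    ∃ y : k → O, ∑ i, c i * y i ≠ 0 ∧ ∀ (v : k → O), ∑ i, ι (v i) * x i = 0 →
      ∑ i, v i * y i = 0 := by
  classical
  let K := FractionRing O
  let φ : K →+* E := IsFractionRing.lift (A := O) (K := K) (g := ι) hι
  have hφ : ∀ a : O, φ (algebraMap O K a) = ι a := fun a => IsFractionRing.lift_algebraMap hι a
  let _ : Algebra K E := φ.toAlgebra
  obtain ⟨f, hf⟩ : ∃ f : Module.Dual K E, f (∑ i, ι (c i) * x i) ≠ 0 := by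
    by_contra hcon
    push Not at hcon
    exact hc ((Module.forall_dual_apply_eq_zero_iff K _).mp hcon)
  obtain ⟨d, hd⟩ := IsLocalization.exist_integer_multiples_of_finite (nonZeroDivisors O)
    (fun i => f (x i))
  choose y hy using hd
  have hinj : Function.Injective (algebraMap O K) := IsFractionRing.injective O K
  have hd0 : algebraMap O K d ≠ 0 := by
    intro h
    exact nonZeroDivisors.coe_ne_zero d (hinj (by rw [h, map_zero]))
  have key : ∀ v : k → O, algebraMap O K (∑ i, v i * y i) =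
      algebraMap O K d * f (∑ i, ι (v i) * x i) := by
    intro v
    have h1 : ∀ i, algebraMap O K (v i * y i) = algebraMap O K d * f (ι (v i) * x i) := by
      intro i
      have h2 : ι (v i) * x i = algebraMap O K (v i) • x i := by
        rw [← hφ, Algebra.smul_def]; rfl
      have h3 : (d : O) • f (x i) = algebraMap O K d * f (x i) := Algebra.smul_def _ _
      rw [h2, map_smul, map_mul, hy i, h3, smul_eq_mul]
      ring
    rw [map_sum, Finset.sum_congr rfl (fun i _ => h1 i), ← Finset.mul_sum, ← map_sum]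
  refine ⟨y, fun h => ?_, fun v hv => hinj ?_⟩
  · have h1 := key c
    rw [h, map_zero] at h1
    exact mul_ne_zero hd0 hf h1.symm
  · rw [key, hv, map_zero, mul_zero, map_zero]

end Descend

section Eig

variable {p : ℕ} [hp : Fact p.Prime] {N : ℕ} [NeZero N] {S : Finset ℕ}
  {O : Type} [CommRing O] [IsDomain O] [IsDiscreteValuationRing O]
  [IsAdicComplete (maximalIdeal O) O] [CharZero O]
  (D : HeckeGaloisModule p N (↑S : Set ℕ)) (hpO : (p : O) ∈ maximalIdeal O)
  (r : GQ →* M2 O) (S' : Finset ℕ)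

/-- the eigenvectors over `O` -/
def Yeig : Submodule O (Fin (rk D) → O) where
  carrier := {x | IsEig D r S' x}
  add_mem' := by
    intro x y hx hy l hl hlN hlS hlS' B hB τ hτ
    rw [mulVec_add, hx l hl hlN hlS hlS' B hB τ hτ, hy l hl hlN hlS hlS' B hB τ hτ, smul_add]
  zero_mem' := by
    intro l hl hlN hlS hlS' B hB τ hτ
    rw [mulVec_zero, smul_zero]
  smul_mem' := by
    intro c x hx l hl hlN hlS hlS' B hB τ hτ
    rw [mulVec_smul, hx l hl hlN hlS hlS' B hB τ hτ, smul_comm]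

theorem mem_Yeig {x : Fin (rk D) → O} : x ∈ Yeig D r S' ↔ IsEig D r S' x := Iff.rfl

theorem Q_comm_P (t : CuspForm.heckeAlgebra N 2 (↑S : Set ℕ)) (σ : GQ) :
    QM O D t * PM D hpO σ = PM D hpO σ * QM O D t := by
  have h3 := Q_commute D t σ
  have hQ : QM O D t = ((Q D t).map (algebraMap ℤ ℤ_[p])).map (padicHom p O hpO) := by
    ext i j
    simp [QM]
  rw [hQ, PM_apply, ← Matrix.map_mul, ← Matrix.map_mul, h3]

theorem Q_comm_Q (t t' : CuspForm.heckeAlgebra N 2 (↑S : Set ℕ)) :
    QM O D t * QM O D t' = QM O D t' * QM O D t := by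
  unfold QM
  rw [← Matrix.map_mul, ← Matrix.map_mul, ← map_mul, ← map_mul, mul_comm]

theorem PM_mem_Yeig {x : Fin (rk D) → O} (hx : x ∈ Yeig D r S') (σ : GQ) :
    PM D hpO σ *ᵥ x ∈ Yeig D r S' := by
  intro l hl hlN hlS hlS' B hB τ hτ
  have h1 := Q_comm_P D hpO (CuspForm.heckeAlgebra.T hl hlN hlS) σ
  have h2 := hx l hl hlN hlS hlS' B hB τ hτ
  change QM O D _ *ᵥ (PM D hpO σ *ᵥ x) = _
  rw [mulVec_mulVec, h1, ← mulVec_mulVec]
  change PM D hpO σ *ᵥ ((Q D _).map (Int.castRingHom O) *ᵥ x) = _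
  rw [h2, mulVec_smul]

theorem QM_mem_Yeig {x : Fin (rk D) → O} (hx : x ∈ Yeig D r S')
    (t : CuspForm.heckeAlgebra N 2 (↑S : Set ℕ)) : QM O D t *ᵥ x ∈ Yeig D r S' := by
  intro l hl hlN hlS hlS' B hB τ hτ
  have h1 := Q_comm_Q (O := O) D (CuspForm.heckeAlgebra.T hl hlN hlS) t
  have h2 := hx l hl hlN hlS hlS' B hB τ hτ
  change QM O D _ *ᵥ (QM O D t *ᵥ x) = _
  rw [mulVec_mulVec, h1, ← mulVec_mulVec]
  change QM O D t *ᵥ ((Q D _).map (Int.castRingHom O) *ᵥ x) = _
  rw [h2, mulVec_smul]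

theorem Yeig_sat {c : O} (hc : c ≠ 0) {x : Fin (rk D) → O} (hx : c • x ∈ Yeig D r S') :
    x ∈ Yeig D r S' := by
  intro l hl hlN hlS hlS' B hB τ hτ
  have h2 := hx l hl hlN hlS hlS' B hB τ hτ
  rw [mulVec_smul, smul_comm] at h2
  exact smul_right_injective _ hc h2

/-- the Galois action on the eigenvectors -/
def sigY : GQ →* Module.End O (Yeig D r S') where
  toFun σ := (kHom (PM D hpO) σ).restrict fun _ hx => PM_mem_Yeig D hpO r S' hx σ
  map_one' := by
    refine LinearMap.ext fun x => Subtype.ext ?_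
    change PM D hpO 1 *ᵥ (x : Fin (rk D) → O) = x
    rw [map_one, one_mulVec]
  map_mul' σ τ := by
    refine LinearMap.ext fun x => Subtype.ext ?_
    change PM D hpO (σ * τ) *ᵥ (x : Fin (rk D) → O) = PM D hpO σ *ᵥ (PM D hpO τ *ᵥ x)
    rw [map_mul, mulVec_mulVec]

theorem coe_sigY (σ : GQ) (y : Yeig D r S') :
    (sigY D hpO r S' σ y : Fin (rk D) → O) = PM D hpO σ *ᵥ y := rfl

theorem trace_matHom (M : M2 O) :
    LinearMap.trace O (Fin 2 → O) (Matrix.toLinAlgEquiv' M : (Fin 2 → O) →ₗ[O] (Fin 2 → O)) =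
      M.trace := by
  rw [LinearMap.trace_eq_matrix_trace O (Pi.basisFun O (Fin 2))]
  congr 1
  exact LinearMap.toMatrix'_toLin' M

/-- the action of the matrix algebra -/
theorem exists_Psi (hr : MatCont O r) (hspan : Submodule.span O (Set.range r) = ⊤) :
    ∃ Ψ : M2 O →ₐ[O] Module.End O (Yeig D r S'), ∀ σ (y : Yeig D r S'),
      (Ψ (r σ) y : Fin (rk D) → O) = PM D hpO σ *ᵥ y := by
  have hspan' : Submodule.span O (Set.range (matHom r)) = ⊤ := by
    have h0 : Submodule.span O
        (((Matrix.toLin' : M2 O ≃ₗ[O] _).toLinearMap : M2 O → _) '' Set.range r) =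
        (⊤ : Submodule O ((Fin 2 → O) →ₗ[O] (Fin 2 → O))) := by
      rw [Submodule.span_image (Matrix.toLin' : M2 O ≃ₗ[O] _).toLinearMap, hspan,
        Submodule.map_top]
      exact LinearEquiv.range _
    rw [← Set.range_comp] at h0
    exact h0
  obtain ⟨Ψ, hΨ⟩ := exists_lift (Pi.basisFun O (Fin 2)) (matHom r) (sigY D hpO r S')
    (cyc p O hpO) hspan' (by
      intro g
      refine LinearMap.ext fun y => Subtype.ext ?_
      have h1 := eig_rel hpO hr (PM_mem_Yeig D hpO r S' y.2 g⁻¹) g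
      have h2 : PO D hpO g *ᵥ (PM D hpO g⁻¹ *ᵥ (y : Fin (rk D) → O)) = y := by
        change PM D hpO g *ᵥ _ = _
        rw [mulVec_mulVec, ← map_mul, mul_inv_cancel, map_one, one_mulVec]
      rw [h2] at h1
      rw [show matHom r g = (Matrix.toLinAlgEquiv' (r g) : (Fin 2 → O) →ₗ[O] (Fin 2 → O)) from rfl,
        trace_matHom]
      change PM D hpO g *ᵥ (y : Fin (rk D) → O) + cyc p O hpO g • (PM D hpO g⁻¹ *ᵥ y) =
        (r g).trace • (y : Fin (rk D) → O)
      rw [← sub_eq_zero, ← h1]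
      change _ = PM D hpO g *ᵥ (y : Fin (rk D) → O) - _ + _
      abel) (by
      intro x hx
      rw [← two_smul O] at hx
      exact (smul_eq_zero.1 hx).resolve_left two_ne_zero)
  refine ⟨Ψ.comp (Matrix.toLinAlgEquiv' : M2 O ≃ₐ[O] _).toAlgHom, fun σ y => ?_⟩
  have h1 := congrArg (fun g : Module.End O (Yeig D r S') => (g y : Fin (rk D) → O)) (hΨ σ)
  exact h1

/-- the determinant is the cyclotomic character -/
theorem det_eq_cyc (hr : MatCont O r) {Ψ : M2 O →ₐ[O] Module.End O (Yeig D r S')}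
    (hΨ : ∀ σ (y : Yeig D r S'), (Ψ (r σ) y : Fin (rk D) → O) = PM D hpO σ *ᵥ y)
    (hY : Yeig D r S' ≠ ⊥) (σ : GQ) : (r σ).det = cyc p O hpO σ := by
  obtain ⟨y, hy, hy0⟩ := Submodule.exists_mem_ne_zero_of_ne_bot hY
  have h1 := eig_rel hpO hr hy σ
  have hCH : r σ * r σ - (r σ).trace • r σ + (r σ).det • 1 = 0 := by
    ext i j
    simp only [Matrix.add_apply, Matrix.sub_apply, Matrix.mul_apply, Fin.sum_univ_two,
      Matrix.smul_apply, smul_eq_mul, Matrix.trace_fin_two, Matrix.det_fin_two, Matrix.zero_apply]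
    fin_cases i <;> fin_cases j <;> simp <;> ring
  have h2 := congrArg (fun M => ((Ψ M ⟨y, hy⟩ : Yeig D r S') : Fin (rk D) → O)) hCH
  simp only [map_add, map_sub, map_mul, map_smul, map_one, map_zero, LinearMap.add_apply,
    LinearMap.sub_apply, Module.End.mul_apply, LinearMap.smul_apply, Module.End.one_apply,
    LinearMap.zero_apply, Submodule.coe_add, AddSubgroupClass.coe_sub, SetLike.val_smul, hΨ,
    ZeroMemClass.coe_zero] at h2
  have h3 : ((r σ).det - cyc p O hpO σ) • y = 0 := by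
    rw [sub_smul, sub_eq_zero]
    have h4 : (PM D hpO σ *ᵥ (PM D hpO σ *ᵥ y) - (r σ).trace • (PM D hpO σ *ᵥ y)) =
      - (cyc p O hpO σ • y) := eq_neg_of_add_eq_zero_left h1
    rw [h4] at h2
    rw [neg_add_eq_zero] at h2
    exact h2.symm
  exact sub_eq_zero.1 ((smul_eq_zero.1 h3).resolve_right hy0)

end Eig

section Ram

variable {p : ℕ} [hp : Fact p.Prime] {A : ValuationSubring Qb}
  {O : Type} [CommRing O] [IsDomain O] [IsDiscreteValuationRing O]
  [IsAdicComplete (maximalIdeal O) O] [CharZero O] (hpO : (p : O) ∈ maximalIdeal O)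

include hpO in
/-- the cyclotomic character is residually nontrivial on inertia -/
theorem exists_inertia_cyc (hA : A.LiesOverPrime p) (hp2 : p ≠ 2) :
    ∃ s ∈ A.inertiaSubgroupIn ℚ, residue O (cyc p O hpO s) ≠ 1 := by
  haveI : NeZero p := ⟨hp.out.ne_zero⟩
  obtain ⟨ζ, hζ⟩ := HasEnoughRootsOfUnity.exists_primitiveRoot (AlgebraicClosure ℚ) p
  have hζ1 : IsPrimitiveRoot ζ (p ^ 1) := by rwa [pow_one]
  have hcop : Nat.Coprime 2 (p ^ 1) := by
    rw [pow_one]
    exact (Nat.coprime_primes Nat.prime_two hp.out).mpr (Ne.symm hp2)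
  obtain ⟨σ, hσ, h2⟩ := ORD.exists_inertia_root hA 1 hζ1 (hζ1.pow_of_coprime 2 hcop)
  have h3 : ∀ μ : Qb, μ ^ (p ^ 1) = 1 → σ μ = μ ^ 2 := by
    intro μ hμ
    obtain ⟨i, -, rfl⟩ := hζ1.eq_pow_of_pow_eq_one hμ
    rw [map_pow, h2, ← pow_mul, ← pow_mul, mul_comm]
  refine ⟨σ, hσ, fun hcon => ?_⟩
  have h4 := cyc_sub_mem hpO 1 2 σ h3
  rw [pow_one, ← residue_eq_zero_iff, map_sub, hcon, map_natCast, sub_eq_zero] at h4
  have h5 : (1 : ResidueField O) = 0 := by
    have h6 : (1 : ResidueField O) + 1 = 1 := by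
      rw [one_add_one_eq_two]
      exact_mod_cast h4.symm
    rwa [add_eq_left] at h6
  exact one_ne_zero h5

end Ram

end Fermat.Agent.OrdOld
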