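import Fermat.Agent.OrdOld.Level

/-!
# Flatness of a representation occurring in a lattice with flat quotients
-/

set_option autoImplicit false
set_option linter.unusedSectionVars false
set_option linter.style.haveILetI false

noncomputable section

open Module GaloisRep Fermat.Agent.HopfOrder IsLocalRing Matrix

namespace Fermat.Agent.OrdOld

open Fermat.Agent.DefRing (M2 MatCont mapRep mapRep_apply)
open Fermat.Agent.FlatT

local notation "Qb" => AlgebraicClosure ℚ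

variable {p : ℕ} [hp : Fact p.Prime]
variable {𝒪 : Type} [CommRing 𝒪] [IsDomain 𝒪] [IsDiscreteValuationRing 𝒪]
variable {X : Type} [AddCommGroup X] [Module 𝒪 X]

/-- a nonzero vector in the image of the first idempotent -/
theorem exists_first (Y : Submodule 𝒪 X) (Ψ : M2 𝒪 →ₐ[𝒪] Module.End 𝒪 Y) (hY : Y ≠ ⊥) :
    ∃ y : Y, y ≠ 0 ∧ Ψ (Matrix.single 0 0 1) y = y := by
  obtain ⟨y, hy, hy0⟩ := Submodule.exists_mem_ne_zero_of_ne_bot hY
  have h1 : (1 : M2 𝒪) = Matrix.single 0 0 1 + Matrix.single 1 1 1 := by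
    ext i j
    fin_cases i <;> fin_cases j <;> simp
  obtain ⟨j, hj⟩ : ∃ j : Fin 2, Ψ (Matrix.single j j 1) ⟨y, hy⟩ ≠ 0 := by
    by_contra hcon
    push Not at hcon
    apply hy0
    have h2 : (⟨y, hy⟩ : Y) = Ψ 1 ⟨y, hy⟩ := by rw [map_one, Module.End.one_apply]
    rw [h1, map_add, LinearMap.add_apply, hcon 0, hcon 1, add_zero] at h2
    exact congrArg Subtype.val h2
  refine ⟨Ψ (Matrix.single 0 j 1) ⟨y, hy⟩, fun h => hj ?_, ?_⟩
  · have h2 : (Matrix.single j j 1 : M2 𝒪) = Matrix.single j 0 1 * Matrix.single 0 j 1 := by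
      rw [Matrix.single_mul_single_same, mul_one]
    rw [h2, map_mul, Module.End.mul_apply, h, map_zero]
  · rw [← Module.End.mul_apply, ← map_mul, Matrix.single_mul_single_same, mul_one]

theorem mul_vecMulVec' (M : M2 𝒪) (u a : Fin 2 → 𝒪) :
    M * vecMulVec u a = vecMulVec (M *ᵥ u) a := by
  ext i j
  simp only [mul_apply, vecMulVec_apply, mulVec, dotProduct, Fin.sum_univ_two]
  ring

theorem flatRep_of_lattice [CharZero 𝒪] (hp𝒪 : (p : 𝒪) ∈ maximalIdeal 𝒪)
    (P : GQ →* Module.End 𝒪 X)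
    (hX : ∀ x : X, (∀ m : ℕ, ∃ y, x = (p : 𝒪) ^ m • y) → x = 0)
    (hlev : ∀ m : ℕ, ∃ (M : Type) (_ : AddCommGroup M) (_ : Finite M)
      (_ : DistribMulAction GQ M) (f : X →+ M), IsFlatMod p M ∧
      (∀ σ x, f (P σ x) = σ • f x) ∧ (∀ x, f x = 0 → ∃ y, x = (p : 𝒪) ^ m • y))
    (Y : Submodule 𝒪 X) (hsat : ∀ (m : ℕ) (x : X), (p : 𝒪) ^ m • x ∈ Y → x ∈ Y)
    (htf : ∀ (a : 𝒪) (x : X), a • x = 0 → a = 0 ∨ x = 0)
    (r : GQ →* M2 𝒪)
    (Ψ : M2 𝒪 →ₐ[𝒪] Module.End 𝒪 Y) (hΨ : ∀ σ (y : Y), (Ψ (r σ) y : X) = P σ y)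
    (hY : Y ≠ ⊥) : FlatRep p 𝒪 r := by
  classical
  intro B _ _ φ
  obtain ⟨y₁, hy0, hy1⟩ := exists_first Y Ψ hY
  obtain ⟨c, hc⟩ : ∃ c : ℕ, ¬ ∃ y : X, (y₁ : X) = (p : 𝒪) ^ c • y := by
    by_contra hcon
    push Not at hcon
    exact hy0 (Subtype.ext (hX _ hcon))
  have hfin : Finite (𝒪 ⧸ RingHom.ker φ) :=
    Finite.of_injective _ (RingHom.kerLift_injective φ)
  obtain ⟨k, hk⟩ := pow_mem_of_finite_quotient hp𝒪 (RingHom.ker φ)
  obtain ⟨M, i1, i2, i3, f, hM, hf, hker⟩ := hlev (c + k)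
  let j : (Fin 2 → 𝒪) → Y := fun v => Ψ (vecMulVec v (Pi.single 0 1)) y₁
  have hj : ∀ v, j v = Ψ (vecMulVec v (Pi.single 0 1)) y₁ := fun v => rfl
  have hjadd : ∀ v v', j (v + v') = j v + j v' := by
    intro v v'
    have h1 : vecMulVec (v + v') (Pi.single 0 1 : Fin 2 → 𝒪) =
        vecMulVec v (Pi.single 0 1) + vecMulVec v' (Pi.single 0 1) := by
      ext a b
      simp only [vecMulVec_apply, Pi.add_apply, Matrix.add_apply]
      ring
    rw [hj, h1, map_add, LinearMap.add_apply]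
  have hjr : ∀ σ v, (j (r σ *ᵥ v) : X) = P σ (j v) := by
    intro σ v
    rw [hj, ← mul_vecMulVec', map_mul, Module.End.mul_apply, hΨ]
  refine isFlatMod_of_ker r φ hM
    (AddMonoidHom.mk' (fun v => f (j v)) fun v w => by
      rw [hjadd, Submodule.coe_add, map_add]) ?_ ?_
  · intro σ v
    change f (j (r σ *ᵥ v)) = σ • f (j v)
    rw [hjr, hf]
  · intro v hv i
    change f (j v) = 0 at hv
    obtain ⟨x', hx'⟩ := hker _ hv
    have hx'Y : x' ∈ Y := hsat (c + k) x' (by rw [← hx']; exact (j v).2)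
    have h1 : Ψ (Matrix.single 0 i 1) (j v) = v i • y₁ := by
      rw [hj, ← Module.End.mul_apply, ← map_mul, mul_vecMulVec']
      have h2 : vecMulVec ((Matrix.single 0 i 1 : M2 𝒪) *ᵥ v) (Pi.single 0 1 : Fin 2 → 𝒪) =
          v i • Matrix.single 0 0 1 := by
        ext a b
        rw [vecMulVec_apply, Matrix.smul_apply, Matrix.single_mulVec]
        fin_cases a <;> fin_cases b <;> simp
      rw [h2, map_smul, LinearMap.smul_apply, hy1]
    have h2 : (v i) • (y₁ : X) = (p : 𝒪) ^ (c + k) •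
        ((Ψ (Matrix.single 0 i 1) ⟨x', hx'Y⟩ : Y) : X) := by
      have h3 : j v = (p : 𝒪) ^ (c + k) • (⟨x', hx'Y⟩ : Y) := Subtype.ext hx'
      rw [h3, map_smul] at h1
      exact (congrArg Subtype.val h1).symm
    set x'' : X := ((Ψ (Matrix.single 0 i 1) ⟨x', hx'Y⟩ : Y) : X)
    have hpk : (p : 𝒪) ^ k ∣ v i := by
      rcases ValuationRing.dvd_total ((p : 𝒪) ^ k) (v i) with h | ⟨d, hd⟩
      · exact h
      · exfalso
        have hv0 : v i ≠ 0 := by
          intro h0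
          rw [h0, zero_mul] at hd
          exact pow_ne_zero _ (Nat.cast_ne_zero.2 hp.out.ne_zero) hd
        apply hc
        refine ⟨d • x'', ?_⟩
        have h4 : v i • ((y₁ : X) - (p : 𝒪) ^ c • d • x'') = 0 := by
          rw [smul_sub, h2, pow_add, hd, sub_eq_zero]
          simp only [smul_smul]
          congr 1
          ring
        exact sub_eq_zero.1 ((htf _ _ h4).resolve_left hv0)
    obtain ⟨e, he⟩ := hpk
    rw [he, map_mul, RingHom.mem_ker.1 hk, zero_mul]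

end Fermat.Agent.OrdOld
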